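/-
S59, unit F1 at `2`: the component over infinity with a coordinate of level two or three.
-/
import Fermat.Agent.GalRep.Wild.RedComp

set_option autoImplicit false
set_option linter.style.haveILetI false
set_option linter.unusedSectionVars false

noncomputable section

namespace Fermat.Agent.ModField

open Polynomial IsLocalRing CongruenceSubgroup
open Fermat.Agent.GalRep
open Fermat.Agent.GalRep.Level
open Fermat.Agent.GalRep.Model (chartRing self_mem_chartRing Lev WFld wSer)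
open Fermat.Agent.Models (IsWildModel IsU)
open Fermat.Agent.MCurve (jHom jHom_injective evJq evJq_eq_jHom)
open Fermat.Agent.MCurve.Spec (LK intHol rS redFld rS_mem_redFld shiftA sQ sk)
open ModularCurve (qExpand jqModC modularFunctionFieldFullC)
open scoped MatrixGroups

local notation "Q̄" => AlgebraicClosure ℚ

variable {O : Type} [CommRing O] [IsDomain O] [IsDiscreteValuationRing O] {M : ℕ} [NeZero M]
  {E : Emb O M} {p m : ℕ} [hp : Fact p.Prime] [NeZero m]

variable {π : O} {hπ : Irreducible π} {e : ℕ} {F₀ : Subfield (Fld₀ O E p m)}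
  (A : ValuationSubring Q̄) [hu : Fact (IsUnit (m : A))] (iA : O →+* A) [IsLocalHom iA]

local notation "rA" => RingHom.comp (residue A) iA
local notation "𝕜" => ResidueField A
local notation "P₀" => twoP O E p m hπ false

variable (hiA : ∀ o, qbarToC (iA o : Q̄) = E.φ o)

include hiA in
/-- The reduction on the component over infinity. -/
theorem exists_redComp_lev (hM : M = p * m) (hpm : ¬ p ∣ m) (L : Lev m)
    (hw : IsWildModel (model₀ O E p m) π (twoP O E p m hπ) e p F₀) :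
    ∃ ρ : P₀ →+* LaurentSeries 𝕜,
      (∀ z : P₀, ρ z = 0 ↔ (z : Fld₀ O E p m) ∈ (P₀).nonunits) ∧
      (∀ (o : O) (h : algebraMap O (Fld₀ O E p m) o ∈ P₀),
        ρ ⟨_, h⟩ = HahnSeries.C (residue A (iA o))) ∧
      (∀ h : jF₀ O E p m ∈ P₀, ρ ⟨_, h⟩ = qExpand 𝕜 m (jqModC 𝕜)) ∧
      (∀ z, ρ z ∈ redFld m A) ∧
      ∀ (z : P₀) (s : LaurentSeries O), lmap E.φ s = toLS E ((z : Fld₀ O E p m) : Fld E) →
        expand p hp.out.ne_zero (ρ z) = lmap rA s := by
  classical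
  have hp0 : p ≠ 0 := hp.out.ne_zero
  obtain ⟨ρ', h0', hρ'⟩ := exists_redSer₀ (p := p) (m := m) (E := E) (hπ := hπ) A iA
  have hB : ∀ (b : Fld₀ O E p m) (hb : b ∈ (model₀ O E p m).B₀) (h : b ∈ P₀),
      ρ' ⟨b, h⟩ ∈ (expand (K := 𝕜) p hp0).fieldRange := fun b hb h => by
    obtain ⟨s, hs⟩ := exists_lmap_eq (poleBound_chart (mem_B₀_iff.mp hb))
    refine mem_range_expand hp0 fun i hi => ?_
    rw [hρ' ⟨b, h⟩ s hs, lmap_coeff, show s.coeff i = 0 from E.inj (by
      rw [← lmap_coeff, hs, map_zero]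
      exact coeff_eq_zero_of_level hM b.2 hi), map_zero]
  have hfrac : ∀ z : P₀, ∃ (a b : Fld₀ O E p m) (ha : a ∈ (model₀ O E p m).B₀)
      (hb : b ∈ (model₀ O E p m).B₀), b ∉ (P₀).nonunits ∧
        z * (⟨b, hw.chart₀.fibre.le false b hb⟩ : P₀) = ⟨a, hw.chart₀.fibre.le false a ha⟩ := by
    intro z
    obtain ⟨a, b, hb, hab⟩ := hw.chart₀.frac false _ z.2
    exact ⟨a, b, a.2, b.2, hb, Subtype.ext hab⟩
  have hrange : ∀ z, ρ' z ∈ (expand (K := 𝕜) p hp0).fieldRange := fun z => by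
    obtain ⟨a, b, ha, hb, hbn, hab⟩ := hfrac z
    have h1 := congrArg ρ' hab
    rw [map_mul] at h1
    rw [eq_div_of_mul_eq (fun h => hbn ((h0' _).mp h)) h1]
    exact div_mem (hB a ha _) (hB b hb _)
  choose f hf using hrange
  have hinj : Function.Injective (expand (K := 𝕜) p hp0) := expand_injective p hp0
  let ρ : P₀ →+* LaurentSeries 𝕜 :=
    { toFun := f
      map_one' := hinj (by rw [hf, map_one, map_one])
      map_zero' := hinj (by rw [hf, map_zero, map_zero])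
      map_mul' := fun x y => hinj (by rw [hf, map_mul, map_mul, hf, hf])
      map_add' := fun x y => hinj (by rw [hf, map_add, map_add, hf, hf]) }
  have hρ : ∀ (z : P₀) (s : LaurentSeries O), lmap E.φ s = toLS E ((z : Fld₀ O E p m) : Fld E) →
      expand p hp0 (ρ z) = lmap rA s := fun z s hs => (hf z).trans (hρ' z s hs)
  have h0 : ∀ z : P₀, ρ z = 0 ↔ (z : Fld₀ O E p m) ∈ (P₀).nonunits := fun z => by
    rw [← h0', ← hf z, map_eq_zero_iff _ hinj]
    rfl
  have hC : ∀ (o : O) (h : algebraMap O (Fld₀ O E p m) o ∈ P₀),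
      ρ ⟨_, h⟩ = HahnSeries.C (residue A (iA o)) := fun o h => by
    have h' : aeval (jF₀ O E p m) (Polynomial.C o) ∈ P₀ := by rwa [aeval_C]
    rw [show (⟨_, h⟩ : P₀) = ⟨_, h'⟩ from Subtype.ext (aeval_C (A := Fld₀ O E p m) _ o).symm,
      redComp_aeval A iA hM ρ hρ, Polynomial.map_C, jHom, coe_eval₂RingHom, eval₂_C,
      ModularCurve.qExpand_C]
    rfl
  have hJ : ∀ h : jF₀ O E p m ∈ P₀, ρ ⟨_, h⟩ = qExpand 𝕜 m (jqModC 𝕜) := fun h => by
    have h' : aeval (jF₀ O E p m) (Polynomial.X : O[X]) ∈ P₀ := by rwa [aeval_X]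
    rw [show (⟨_, h⟩ : P₀) = ⟨_, h'⟩ from Subtype.ext (aeval_X (R := O) (jF₀ O E p m)).symm,
      redComp_aeval A iA hM ρ hρ, Polynomial.map_X, jHom, coe_eval₂RingHom, eval₂_X]
  refine ⟨ρ, h0, hC, hJ, fun z => ?_, hρ⟩
  have hmem : ∀ (b : Fld₀ O E p m) (hb : b ∈ (model₀ O E p m).B₀),
      ρ ⟨b, hw.chart₀.fibre.le false b hb⟩ ∈ redFld m A := fun b hb => by
    obtain ⟨Q, y, g, hQ, hmul, hr, -, -⟩ := exists_red_chart A iA hiA L hM hpm hw ρ h0 hρ hb
    have hq : qExpand 𝕜 m (jHom 𝕜 (Q.map rA)) ≠ 0 :=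
      (map_ne_zero_iff _ (ModularCurve.qExpand_injective m)).mpr
        ((map_ne_zero_iff _ jHom_injective).mpr hQ)
    rw [eq_div_of_mul_eq hq hmul, ← hr]
    refine div_mem (rS_mem_redFld A y) ?_
    rw [← Polynomial.map_map, ← MCurve.Spec.rS_polI A L]
    exact rS_mem_redFld A _
  obtain ⟨a, b, ha, hb, hbn, hab⟩ := hfrac z
  have h1 := congrArg ρ hab
  rw [map_mul] at h1
  rw [eq_div_of_mul_eq (fun h => hbn ((h0 _).mp h)) h1]
  exact div_mem (hmem a ha) (hmem b hb)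

include hiA in
/-- Invariant functions with a multiple in the chart reduce into the function field of `X₀(m₀)`. -/
theorem mem_of_invariant_lev (hM : M = p * m) (hpm : ¬ p ∣ m) (L : Lev m)
    (hA : A.LiesOverPrime p)
    (hw : IsWildModel (model₀ O E p m) π (twoP O E p m hπ) e p F₀)
    (ρ : P₀ →+* LaurentSeries 𝕜)
    (h0 : ∀ z : P₀, ρ z = 0 ↔ (z : Fld₀ O E p m) ∈ (P₀).nonunits)
    (hρ : ∀ (z : P₀) (s : LaurentSeries O), lmap E.φ s = toLS E ((z : Fld₀ O E p m) : Fld E) →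
      expand p hp.out.ne_zero (ρ z) = lmap rA s)
    {m₀ : ℕ} [NeZero m₀] (hd : m₀ ∣ m) (z : P₀) (N : ℕ)
    (hz : π ^ N • (z : Fld₀ O E p m) ∈ (model₀ O E p m).B₀)
    (hinv : ∀ g ∈ Gamma0 (p * m₀), fShift E g ((z : Fld₀ O E p m) : Fld E) = (z : Fld₀ O E p m)) :
    ∃ y ∈ modularFunctionFieldFullC 𝕜 m₀, ρ z = qExpand 𝕜 m y := by
  have hpM : p ∣ M := hM ▸ dvd_mul_right p m
  have hpO := natCast_mem_of_wild hw
  have hvinv : ∀ g ∈ Gamma0 p, fShift E g (vF E p hpM) = vF E p hpM := fun g hg => by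
    rw [vF, fShift_toFld]
    exact congrArg _ (Subtype.ext (Subtype.ext (funext fun τ =>
      (isModFun_vFun p).invariant g hg τ)))
  let v : Fld₀ O E p m :=
    ⟨vF E p hpM, mem_fld₀_self_iff.mpr fun g hg => hvinv g (mem_levelG.mp hg).1⟩
  have hvB : v ∈ (model₀ O E p m).B₀ := mem_B₀_iff.mpr (vF_mem_chart hpM)
  have hvU : IsU (twoP O E p m hπ false) v := by
    rw [twoP, comp, isU_comap_iff]
    exact ((uF_gauss (E := E) hπ hpO hpM 1).1 (by simp)).2
  have hvN : v ∈ (twoP O E p m hπ true).nonunits := by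
    rw [twoP, comp, mem_nonunits_comap]
    refine ((uF_gauss (E := E) hπ hpO hpM ModularGroup.S).2 ?_).2
    simp only [ModularGroup.coe_S]
    intro hd'
    simp at hd'
    exact hp.out.ne_one (Nat.dvd_one.mp (Int.natCast_dvd_natCast.mp (by simpa using hd')))
  have hup : ∀ (k : ℕ) (u : Fld₀ O E p m), u ∈ P₀ → π ^ k • u ∈ (model₀ O E p m).B₀ →
      v ^ k * u ∈ (model₀ O E p m).B₀ := by
    intro k
    induction k with
    | zero => intro u _ h; simpa using h
    | succ k ih =>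
      intro u hu h
      have hπu : π • u ∈ P₀ := by
        rw [Algebra.smul_def]; exact mul_mem (hw.algebraMap_mem false π) hu
      have h1 := ih (π • u) hπu (by rwa [smul_smul, ← pow_succ])
      have e : v ^ k * (π • u) * v = π • (v ^ (k + 1) * u) := by
        simp only [Algebra.smul_def]; ring
      obtain ⟨d, hd, hde⟩ := hw.chart₀.fibre.reduced _ (mul_mem h1 hvB) fun i => by
        cases i
        · exact (hw.mem_nonunits_iff false).mpr
            ⟨_, mul_mem (pow_mem hvU.1 _) hu, e⟩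
        · rw [ValuationSubring.mem_nonunits_iff, map_mul, mul_comm]
          exact mul_lt_one_of_lt_of_le (((twoP O E p m hπ true).mem_nonunits_iff).mp hvN)
            ((ValuationSubring.valuation_le_one_iff _ _).mpr (hw.chart₀.fibre.le true _ h1))
      rw [e, Algebra.smul_def, Algebra.smul_def] at hde
      rwa [mul_left_cancel₀ hw.pi_ne_zero hde]
  have h1B := hup N z z.2 hz
  have hvk : v ^ N ∈ (model₀ O E p m).B₀ := pow_mem hvB N
  have hfixv : ∀ g ∈ Gamma0 (p * m₀),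
      fShift E g ((v ^ N : Fld₀ O E p m) : Fld E) = ((v ^ N : Fld₀ O E p m) : Fld E) := fun g hg => by
    show fShift E g (vF E p hpM ^ N) = vF E p hpM ^ N
    rw [map_pow, hvinv g (MCurve.Gamma0_le_of_dvd (dvd_mul_right p m₀) hg)]
  obtain ⟨y₁, hy₁, e₁⟩ := mem_of_invariant_chart A iA hiA L hM hpm hA hw ρ h0 hρ hd h1B
    fun g hg => by rw [Subfield.coe_mul, map_mul, hfixv g hg, hinv g hg]
  obtain ⟨y₂, hy₂, e₂⟩ := mem_of_invariant_chart A iA hiA L hM hpm hA hw ρ h0 hρ hd hvk hfixv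
  have hne : ρ ⟨v ^ N, hw.chart₀.fibre.le false _ hvk⟩ ≠ 0 := fun h => by
    rw [show (⟨v ^ N, _⟩ : P₀) = (⟨v, hvU.1⟩ : P₀) ^ N from Subtype.ext rfl, map_pow] at h
    exact hvU.2 (Models.rs_eq_zero_of_nonunit ((h0 ⟨v, hvU.1⟩).mp (eq_zero_of_pow_eq_zero h)))
  have e3 : ρ z * ρ ⟨v ^ N, hw.chart₀.fibre.le false _ hvk⟩ =
      ρ ⟨v ^ N * z, hw.chart₀.fibre.le false _ h1B⟩ := by
    rw [← map_mul]
    exact congrArg ρ (Subtype.ext (mul_comm _ _))
  refine ⟨y₁ / y₂, div_mem hy₁ hy₂, ?_⟩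
  rw [map_div₀, ← e₁, ← e₂, eq_div_iff hne, e3]

end Fermat.Agent.ModField
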