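import Fermat.Agent.R59.Mazur.Two.Main
import Fermat.Agent.R59.Mazur.PLevel.InfOrd

/-!
# S59, unit F1 at `2`: the divisibility over infinity when `p` divides the level of the model
-/

set_option autoImplicit false
set_option linter.style.haveILetI false
set_option linter.unusedSectionVars false

namespace Fermat.Agent.R59

open IsLocalRing
open Fermat.Agent.GalRep
open Fermat.Agent.GalRep.Semistable (ChartsSemi)
open Fermat.Agent.NewVec
open Fermat.Agent.ModField

set_option maxHeartbeats 800000 in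
/-- The orders over infinity of the reductions at `2` are divisible by `p`. -/
theorem redOrdInfDvd_two {A : ValuationSubring (AlgebraicClosure ℚ)} {p m : ℕ} [Fact p.Prime]
    [NeZero p] [Fact (Nat.Prime 2)] [NeZero m] (hA : A.LiesOverPrime 2) (hp : p = 3 ∨ p = 5)
    (hsq : Squarefree m) (hm2 : ¬ 2 ∣ m) (hr : p = 3 → ∃ r : ℕ, r.Prime ∧ r ∣ m ∧ r % 3 = 2)
    (h : ¬ (p = 5 ∧ ¬ p ∣ levelTwo p m)) : RedOrdInfDvd A p 2 m := by
  obtain ⟨hmm, h3, hodd, h5, hcase⟩ := levelTwo_spec hp hsq hm2 hr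
  set m' := levelTwo p m with hm'
  haveI : NeZero m' := ⟨by omega⟩
  haveI : NeZero (2 * m') := ⟨by omega⟩
  obtain ⟨hpm, hpp⟩ := hcase.resolve_left h
  have hqm' : ¬ 2 ∣ m' := Nat.two_dvd_ne_zero.mpr (Nat.odd_iff.mp hodd)
  have hp' : p.Prime := Fact.out
  have hne2 : (2 : ℕ) ≠ p := by rcases hp with rfl | rfl <;> norm_num
  have hp2' : ¬ p ∣ 2 := fun h =>
    hne2 ((Nat.prime_dvd_prime_iff_eq hp' Nat.prime_two).mp h).symm
  set c : ℕ := if p = 3 then 2 else 6
  have hD : (c * (2 * (m' / p))).Coprime p := Nat.Coprime.symm (hp'.coprime_iff_not_dvd.mpr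
    fun h => by
      rcases hp'.dvd_mul.mp h with h | h
      · rcases hp with rfl | rfl <;> simp [c] at h <;> norm_num at h
      rcases hp'.dvd_mul.mp h with h | h
      · exact hp2' h
      · exact hpp (Nat.mul_dvd_of_dvd_div hpm h))
  have hell : 6 ∣ c * (2 * (m' / p)) ∨
      (2 ∣ c * (2 * (m' / p)) ∧ ∃ r : ℕ, r.Prime ∧ r ∣ m' ∧ r % 3 = 2) := by
    rcases hp with rfl | rfl
    · obtain ⟨r, hr', hrm, hr3⟩ := hr rfl
      exact Or.inr ⟨Dvd.dvd.mul_left (dvd_mul_right 2 _) _, r, hr', hrm.trans hmm, hr3⟩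
    · exact Or.inl (Dvd.dvd.mul_right (by simp [c]) _)
  intro χ F φ
  exact redOrdInfDvd_pLevel hA hne2 hqm' (le_trans (by norm_num) h5) (levThree h3 h5) hmm
    (chartsSemi_two hA h3 hodd) hD
    (fun [IsDiscreteValuationRing (oBase A (2 * m'))] =>
      horRoots_pLevel (p := p) hA hqm' hpm (D := c * (2 * (m' / p))) (dvd_mul_left _ _) hell)
    hpm hpp

end Fermat.Agent.R59
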