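/-
S59, unit F1 at `2`: reductions at level `Γ₀(q m)` on the component over infinity, with a coordinate
of level two or three.
-/
import Fermat.Agent.LL.Mazur.RedLevel
import Fermat.Agent.R59.Mazur.Two.RedComp

set_option autoImplicit false
set_option linter.style.haveILetI false
set_option linter.unusedSectionVars false

noncomputable section

namespace Fermat.Agent.LL.Mazur

open UpperHalfPlane CongruenceSubgroup IsLocalRing ModularCurve
open Fermat.Agent.GalRep (IsModFun HasQSeries seriesToC HasRed)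
open Fermat.Agent.GalRep.Semistable (ChartsSemi FixedConst)
open Fermat.Agent.GalRep (HasQSeries lmap expand serAlg shift shift_apply)
open Fermat.Agent.GalRep.Level
open Fermat.Agent.GalRep.Semistable (Inv0 AlgMF InertiaFix inertiaFix_iff rs_eq_of_redAt RedAt
  hasRed_unique)
open Fermat.Agent.GalRep.InertiaBase (rBase rFld rUnif embR rTop wTop totRam embO_K_le bddIncl
  coe_bddIncl toLS_algebraMap_top rBase_dvr isAlgClosed_rBase)
open Fermat.Agent.ModField
open Fermat.Agent.NewVec
open scoped MatrixGroups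

local notation "ℚb" => AlgebraicClosure ℚ
local notation "κ" A:max => IsLocalRing.ResidueField A

variable {A : ValuationSubring (AlgebraicClosure ℚ)} {q m m' : ℕ} [Fact q.Prime] [NeZero q]
  [NeZero m] [NeZero m']

set_option maxHeartbeats 1600000 in
set_option synthInstance.maxHeartbeats 200000 in
/-- The component over infinity at level `q m`. -/
theorem red_mem_fullC_bad_lev (hA : A.LiesOverPrime q) (hqm' : ¬ q ∣ m') (Lv : Fermat.Agent.GalRep.Model.Lev m')
    (hmm : m ∣ m') (hpts : ChartsSemi A q m') {φ : ℍ → ℂ} (hφ : IsModFun (Gamma0 (q * m)) φ)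
    {g : LaurentSeries ℚb} (hg : HasQSeries 1 φ (seriesToC g))
    (hfix : ∀ i, FixedConst A (g.coeff i)) {Y : LaurentSeries (κ A)} (hY : HasRed A g Y) :
    Y ∈ modularFunctionFieldFullC (κ A) m := by
  classical
  rcases eq_or_ne Y 0 with rfl | hY0
  · exact zero_mem _
  have hq : q.Prime := Fact.out
  haveI := GalRep.charP_residue (A := A) hq hA
  obtain ⟨hWdvr, hqW, hWac⟩ := wBase_props A hq hA
  haveI := hWdvr
  haveI := hWac
  obtain ⟨hOdvr, hπmax, hπ⟩ := oBase_dvr (A := A) (M := q * m') hq hA rfl hqm'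
  haveI := hOdvr
  haveI := GalRep.Semistable.finite_oBase (A := A) (M := q * m') hq hA rfl hqm'
  let E := embO A (q * m')
  have hψ := GalRep.Semistable.constMap_oBase (A := A) (M := q * m') hπmax
  have hW := GalRep.Semistable.hasFixedConsts_oBase (A := A) (M := q * m')
  have hco : Nat.Coprime q m' := hq.coprime_iff_not_dvd.mpr hqm'
  -- the function at the level of the model
  have hle : Gamma0 (q * m') ≤ Gamma0 (q * m) :=
    MCurve.Gamma0_le_of_dvd (mul_dvd_mul_left q hmm)
  let φ' : MF (q * m') := ⟨φ, GalRep.modFuns_anti ((GalRep.Gamma_le_Gamma0 _).trans hle) hφ⟩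
  let g' := expand (q * m') (NeZero.ne _) g
  have hg' : HasQSeries (q * m') (φ' : ℍ → ℂ) (seriesToC g') := by
    have h1 := hg.refine_width one_pos (q * m') (NeZero.ne _)
    rw [one_mul] at h1
    rw [GalRep.seriesToC_eq_lmap, GalRep.lmap_expand]
    exact h1
  have hser : serAlg (q * m') φ' = seriesToC g' :=
    (GalRep.hasQSeries_serHom φ').unique (NeZero.pos _) hg'
  have hfix' : ∀ i, g'.coeff i ∈ inertiaFld A := fun i => by
    by_cases hi : ((q * m' : ℕ) : ℤ) ∣ i
    · obtain ⟨j, rfl⟩ := hi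
      rw [GalRep.expand_coeff_mul]
      exact (mem_inertiaFld A).mpr (hfix j)
    · rw [GalRep.expand_coeff_of_not_dvd _ _ _ _ hi]
      exact zero_mem _
  have hi' : Inv0 (q * m') (φ' : ℍ → ℂ) := fun γ hγ τ => hφ.invariant γ (hle hγ) τ
  have ha' : AlgMF φ' := ⟨g', hser.symm⟩
  have hf' : InertiaFix A φ' := inertiaFix_iff.mpr fun σ hσ => by
    rw [hser, GalRep.lmap_seriesToC (GalRep.liftAut_spec σ), GalRep.seriesConj_eq_lmap]
    refine congrArg seriesToC ?_
    ext i
    rw [GalRep.lmap_coeff]
    exact (mem_inertiaFld A).mp (hfix' i) σ hσ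
  let bx : bddMF E := ⟨φ', GalRep.Semistable.mem_bddMF_of_fixed hW ha' hf'⟩
  let x : Fld₀ (wBase A) E q m' :=
    ⟨toFld E bx, GalRep.Semistable.toFld_mem_fld₀ hW hco hi' ha' hf'⟩
  have hy' : HasRed A g' (expand (q * m') (NeZero.ne _) Y) := hY.expand _ _
  have hred : RedAt A (q * m') (φ' : ℍ → ℂ) 1 (expand (q * m') (NeZero.ne _) Y) :=
    ⟨g', by simpa only [one_smul] using hg', hy'⟩
  have hxP : x ∈ twoP (wBase A) E q m' hπ false := ((isU_comap_iff _ _).mpr
    (rs_eq_of_redAt hψ hπ (δ := 1) (X := bx) (Y := bx) hred hred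
      ((map_ne_zero_iff _ (GalRep.expand_injective _ _)).mpr hY0)).1).1
  -- the model over a base with the roots of unity
  let L := IntermediateField.adjoin ℚ ({zetaQ (q * m')} : Set ℚb)
  haveI : FiniteDimensional ℚ L := GalRep.WildModel.finite_adjoin_zetaQ _
  haveI : Normal ℚ L := GalRep.WildModel.normal_adjoin_zetaQ _
  have hζ : zetaQ (q * m') ∈ L := IntermediateField.mem_adjoin_simple_self ℚ _
  haveI := (rBase_dvr (L := L) hq hA).1
  haveI := isAlgClosed_rBase (L := L) hq hA
  have hw := GalRep.WildModel.isWildModel hq hA hqm' hζ hpts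
  haveI : Fact (IsUnit (m' : A)) := ⟨by
    by_contra h
    have h1 : residue A (m' : A) = 0 :=
      (residue_eq_zero_iff _).mpr ((IsLocalRing.mem_maximalIdeal _).mpr h)
    exact hqm' ((CharP.cast_eq_zero_iff (κ A) q m').mp
      ((map_natCast (residue A) m').symm.trans h1))⟩
  let iA : rBase A L →+* A := cutHom (A := A) (algebraMap (rFld A L) ℚb)
  haveI : IsLocalHom iA := ⟨fun o ho => (isUnit_cut_iff _ o).mpr ((A.valuation_eq_one_iff _).mp ho)⟩
  obtain ⟨ρ, hker, -, -, -, hρ⟩ := exists_redComp_lev A iA (fun o => rfl) rfl hqm' Lv hw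
  let E' := embR A L hζ
  have hP := algebraMap_mem_twoP_iff (E' := E') (q := q) (m := m') hqW
    (fun z => toLS_algebraMap_top z) (embO_K_le hζ) (GalRep.WildModel.embO_value hζ)
    (totRam (hζ := hζ) rfl hq hA) rfl hπ (GalRep.WildModel.irreducible_rUnif hq hA) false x
  let z : twoP (rBase A L) E' q m' (GalRep.WildModel.irreducible_rUnif hq hA) false :=
    ⟨algebraMap (wTop A (q * m') q m') (rTop A L hζ q m') x, hP.mpr hxP⟩
  -- a multiple in the chart, and invariance
  let b : bddMF E' := bddIncl (embO_K_le hζ) bx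
  have hzb : ((z : rTop A L hζ q m') : Fld E') = toFld E' b := toLS_injective E' (by
    rw [show ((z : rTop A L hζ q m') : Fld E') =
      (algebraMap (wTop A (q * m') q m') (rTop A L hζ q m') x : Fld E') from rfl,
      toLS_algebraMap_top, toLS_toFld, toLS_toFld, coe_bddIncl])
  obtain ⟨N, hN⟩ := exists_pow_mul_mem_chart (GalRep.WildModel.irreducible_rUnif hq hA) b
  obtain ⟨y, hy, hρy⟩ := mem_of_invariant_lev A iA (fun o => rfl) rfl hqm' Lv hA hw ρ hker hρ hmm z N
    (mem_B₀_iff.mpr (by
      rw [Algebra.smul_def, Subfield.coe_mul, coe_algebraMap_fld₀, map_pow, hzb]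
      exact hN))
    fun γ hγ => by
      rw [hzb, fShift_toFld]
      refine congrArg _ (Subtype.ext (Subtype.ext (funext fun τ => ?_)))
      rw [shift_apply]
      exact hφ.invariant γ hγ τ
  -- its reduced series
  let s : LaurentSeries (rBase A L) :=
    ⟨fun i => algebraMap (wBase A) (rBase A L) ⟨⟨g'.coeff i, hfix' i⟩, (hy' i).1⟩,
      g'.isPWO_support.mono fun i h0 h1 => h0
        ((congrArg (algebraMap (wBase A) (rBase A L))
          (show (⟨⟨g'.coeff i, hfix' i⟩, (hy' i).1⟩ : wBase A) = 0 from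
            Subtype.ext (Subtype.ext h1))).trans (map_zero _))⟩
  have h1 := hρ z s (by
    rw [hzb, toLS_toFld, coe_bddIncl, hser, GalRep.seriesToC_eq_lmap]
    ext i
    rfl)
  have h2' : lmap ((residue A).comp iA) s = expand (q * m') (NeZero.ne _) Y := by
    ext i
    exact (hy' i).2
  rw [h2', ← MCurve.qExpand_eq_expand (q * m'), ← MCurve.qExpand_eq_expand q,
    ← ModularCurve.qExpand_qExpand, hρy] at h1
  rwa [← ModularCurve.qExpand_injective m' (ModularCurve.qExpand_injective q h1)]

end Fermat.Agent.LL.Mazur
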