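/-
S59, unit F1 at `2`: semistable charts at odd multiples of three and the level of the reductions.
-/
import Fermat.Agent.LL.Mazur.SemiLevel
import Fermat.Agent.R59.Mazur.Two.RedLevel
import Fermat.Agent.R59.Mazur.Gen.Defs

set_option autoImplicit false
set_option linter.style.haveILetI false
set_option linter.unusedSectionVars false

noncomputable section

namespace Fermat.Agent.R59

open CongruenceSubgroup ModularCurve
open Fermat.Agent.NewVec
open Fermat.Agent.ModField
open Fermat.Agent.Models (SemiPoints)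
open Fermat.Agent.GalRep.Semistable (ChartsSemi finite_oBase)
open Fermat.Agent.GalRep.Model (chartRing Lev)

/-- The coordinate of level three. -/
def levThree {M : ℕ} (h3 : 3 ∣ M) (h5 : 5 ≤ M) : Lev M :=
  ⟨3, M / 3, Or.inr rfl, (Nat.div_mul_cancel h3).symm, h5⟩

/-- The charts at `2 m` are semistable for odd multiples `m` of three. -/
theorem chartsSemi_two {A : ValuationSubring (AlgebraicClosure ℚ)} (hA : A.LiesOverPrime 2)
    {m : ℕ} [NeZero (2 * m)] (h3 : 3 ∣ m) (hodd : Odd m) : ChartsSemi A 2 m := by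
  haveI : Fact (Nat.Prime 2) := ⟨Nat.prime_two⟩
  obtain ⟨hWdvr, hqW, hWac⟩ := wBase_props A Nat.prime_two hA
  haveI := hWdvr
  haveI := hWac
  haveI : NeZero m := ⟨fun h => by simp [h] at hodd⟩
  have h2 : ¬ 2 ∣ m := Nat.two_dvd_ne_zero.mpr (Nat.odd_iff.mp hodd)
  have hm3 : 3 ≤ m := Nat.le_of_dvd (NeZero.pos m) h3
  haveI := (oBase_dvr (A := A) (M := 2 * m) Nat.prime_two hA rfl h2).1
  haveI := finite_oBase (A := A) (M := 2 * m) Nat.prime_two hA rfl h2
  have h := semiPoints_finite_two (embO A (2 * m)) (m := m)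
    (by simpa using hqW) (adjoin_eq_top Nat.prime_two hA rfl h2)
    (exists_wBase_pow Nat.prime_two hA rfl h2) hodd h3 rfl
  have hfin : SemiPoints (chartRing (wBase A) (jF₀ (wBase A) (embO A (2 * m)) 2 m))
      ((2 : ℕ) : wBase A) := by simpa using h
  exact ⟨hfin, semiPoints_infinite hqW (adjoin_eq_top Nat.prime_two hA rfl h2)
    (exists_wBase_pow Nat.prime_two hA rfl h2) rfl h2 hm3 hfin⟩

/-- Reductions at level `Γ₀(2 m)` have level `m`. -/
theorem redMemBad_two {A : ValuationSubring (AlgebraicClosure ℚ)} (hA : A.LiesOverPrime 2)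
    {m m' : ℕ} [NeZero m] [NeZero m'] [NeZero (2 * m')] (hmm : m ∣ m') (h3 : 3 ∣ m')
    (hodd : Odd m') (h5 : 5 ≤ m') : RedMemBad A 2 m := fun φ hφ g hg hfix Y hY => by
  haveI : Fact (Nat.Prime 2) := ⟨Nat.prime_two⟩
  exact Fermat.Agent.LL.Mazur.red_mem_fullC_bad_lev hA
    (Nat.two_dvd_ne_zero.mpr (Nat.odd_iff.mp hodd)) (levThree h3 h5) hmm
    (chartsSemi_two hA h3 hodd) hφ hg hfix hY

end Fermat.Agent.R59
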