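/-
The relation between `j` and the coordinate of level three: `j (3 - 6κ) (w (w-1) (w-κ))³ = c₄³`,
from the division polynomial of order three.
-/
import Fermat.Agent.Moduli.JRelation
import Fermat.Agent.Moduli.Germ

set_option autoImplicit false
set_option linter.style.haveILetI false
set_option linter.unusedSectionVars false

noncomputable section

namespace Fermat.Agent.Moduli

open UpperHalfPlane WeierstrassCurve
open Fermat.Agent.GalRep
open Fermat.Agent.GalRep.Model (Lev tauPair divPt wpDiff NZ PM wp_eq_iff_mem)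
open scoped MatrixGroups

local notation "Δ" => ModularForm.discriminant

/-- A point of order three of the Legendre curve is an inflexion. -/
theorem legendre_triple {F : Type*} [Field F] [CharZero F] [DecidableEq F] {l x y : F}
    (hns : (legendre l).toAffine.Nonsingular x y)
    (hsum : Affine.Point.some x y hns + Affine.Point.some x y hns = -Affine.Point.some x y hns) :
    (3 * x ^ 2 - 2 * (1 + l) * x + l) ^ 2 = 4 * y ^ 2 * (3 * x - 1 - l) := by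
  have hY : y ≠ (legendre l).toAffine.negY x y := fun e => by
    rw [Affine.Point.add_self_of_Y_eq e, Affine.Point.neg_some] at hsum
    exact Affine.Point.some_ne_zero _ hsum.symm
  rw [Affine.Point.add_self_of_Y_ne hY, Affine.Point.neg_some, Affine.Point.some.injEq] at hsum
  have hx := hsum.1
  have h2Y : y ≠ 0 := fun e => hY (by rw [negY_legendre, e, neg_zero])
  rw [Affine.slope_of_Y_ne rfl hY, Affine.addX, negY_legendre] at hx
  simp only [legendre, zero_mul, sub_zero, add_zero] at hx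
  field_simp at hx
  linear_combination hx

/-- The equation of the abscissa of a point of order three. -/
theorem wp_three {L : PeriodPair} (P : HalfPeriods L) {h : ℂ} (h3 : 3 * h ∈ L.lattice)
    (hn : h ∉ L.lattice) :
    L.weierstrassP h ^ 4 - L.g₂ / 2 * L.weierstrassP h ^ 2 - L.g₃ * L.weierstrassP h
      - L.g₂ ^ 2 / 48 = 0 := by
  classical
  have hsum : P.uniform h + P.uniform h = -P.uniform h := by
    rw [eq_neg_iff_add_eq_zero, ← map_add, ← map_add, P.uniform_eq_zero_iff]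
    rwa [show h + h + h = 3 * h by ring]
  rw [P.uniform_of_notMem hn] at hsum
  have hx' := legendre_triple _ hsum
  have hs := L.derivWeierstrassP_sq h hn
  have hsum3 : P.e 0 + P.e 1 + P.e 2 = 0 := by
    linear_combination (P.cubic_eq 1 + P.cubic_eq (-1) - 2 * P.cubic_eq 0) / 8
  have hg2 : L.g₂ = -4 * (P.e 0 * P.e 1 + P.e 0 * P.e 2 + P.e 1 * P.e 2) := by
    linear_combination (P.cubic_eq (-1) - P.cubic_eq 1) / 2
  have e2' : P.e 2 = -P.e 0 - P.e 1 := by linear_combination hsum3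
  have hX : P.X h * P.root ^ 2 = L.weierstrassP h - P.e 0 := by
    rw [HalfPeriods.X, P.root_sq, div_mul_cancel₀ _ P.sub_ne]
  have hl : P.lam * P.root ^ 2 = P.e 2 - P.e 0 := by
    rw [HalfPeriods.lam, P.root_sq, div_mul_cancel₀ _ P.sub_ne]
  have hYr : P.Y h * (2 * P.root ^ 3) = L.derivWeierstrassP h := by
    rw [HalfPeriods.Y, div_mul_cancel₀ _ (mul_ne_zero two_ne_zero (pow_ne_zero _ P.root_ne))]
  have hA : (3 * P.X h ^ 2 - 2 * (1 + P.lam) * P.X h + P.lam) * P.root ^ 4 =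
      3 * L.weierstrassP h ^ 2 - L.g₂ / 4 := by
    rw [show (3 * P.X h ^ 2 - 2 * (1 + P.lam) * P.X h + P.lam) * P.root ^ 4 =
      3 * (P.X h * P.root ^ 2) ^ 2 - 2 * (P.root ^ 2 + P.lam * P.root ^ 2) * (P.X h * P.root ^ 2) +
        P.lam * P.root ^ 2 * P.root ^ 2 by ring, hX, hl, P.root_sq, hg2, e2']
    ring
  have hB : (3 * P.X h - 1 - P.lam) * P.root ^ 2 = 3 * L.weierstrassP h := by
    rw [show (3 * P.X h - 1 - P.lam) * P.root ^ 2 =
      3 * (P.X h * P.root ^ 2) - P.root ^ 2 - P.lam * P.root ^ 2 by ring, hX, hl, P.root_sq, e2']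
    ring
  have key : (12 * L.weierstrassP h ^ 2 - L.g₂) ^ 2 =
      48 * L.weierstrassP h * L.derivWeierstrassP h ^ 2 := by
    rw [← hYr, show 12 * L.weierstrassP h ^ 2 - L.g₂ = 4 * (3 * L.weierstrassP h ^ 2 - L.g₂ / 4) by
      ring, ← hA, show 48 * L.weierstrassP h = 16 * (3 * L.weierstrassP h) by ring, ← hB]
    linear_combination (16 * P.root ^ 8) * hx'
  linear_combination (-1 / 48 : ℂ) * key - L.weierstrassP h * hs

/-- Four distinct roots of a depressed quartic. -/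
theorem quartic_vieta {A B C : ℂ} {x : Fin 4 → ℂ} (hinj : Function.Injective x)
    (hx : ∀ i, x i ^ 4 + A * x i ^ 2 + B * x i + C = 0) :
    x 3 = -x 0 - x 1 - x 2 ∧
      A = x 0 * x 1 + x 0 * x 2 + x 0 * x 3 + x 1 * x 2 + x 1 * x 3 + x 2 * x 3 ∧
      B = -(x 0 * x 1 * x 2 + x 0 * x 1 * x 3 + x 0 * x 2 * x 3 + x 1 * x 2 * x 3) ∧
      C = x 0 * x 1 * x 2 * x 3 := by
  have d : ∀ i j, i ≠ j → x i - x j ≠ 0 := fun i j h => sub_ne_zero.2 (hinj.ne h)
  have a01 : x 0 ^ 3 + x 0 ^ 2 * x 1 + x 0 * x 1 ^ 2 + x 1 ^ 3 + A * (x 0 + x 1) + B = 0 :=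
    mul_left_cancel₀ (d 0 1 (by decide)) (by linear_combination hx 0 - hx 1)
  have a02 : x 0 ^ 3 + x 0 ^ 2 * x 2 + x 0 * x 2 ^ 2 + x 2 ^ 3 + A * (x 0 + x 2) + B = 0 :=
    mul_left_cancel₀ (d 0 2 (by decide)) (by linear_combination hx 0 - hx 2)
  have a03 : x 0 ^ 3 + x 0 ^ 2 * x 3 + x 0 * x 3 ^ 2 + x 3 ^ 3 + A * (x 0 + x 3) + B = 0 :=
    mul_left_cancel₀ (d 0 3 (by decide)) (by linear_combination hx 0 - hx 3)
  have b12 : x 0 ^ 2 + x 0 * (x 1 + x 2) + x 1 ^ 2 + x 1 * x 2 + x 2 ^ 2 + A = 0 :=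
    mul_left_cancel₀ (d 1 2 (by decide)) (by linear_combination a01 - a02)
  have b13 : x 0 ^ 2 + x 0 * (x 1 + x 3) + x 1 ^ 2 + x 1 * x 3 + x 3 ^ 2 + A = 0 :=
    mul_left_cancel₀ (d 1 3 (by decide)) (by linear_combination a01 - a03)
  have hs : x 3 = -x 0 - x 1 - x 2 := by
    have : x 0 + x 1 + x 2 + x 3 = 0 :=
      mul_left_cancel₀ (d 2 3 (by decide)) (by linear_combination b12 - b13)
    linear_combination this
  have hA : A = x 0 * x 1 + x 0 * x 2 + x 0 * x 3 + x 1 * x 2 + x 1 * x 3 + x 2 * x 3 := by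
    rw [hs]; linear_combination b12
  have hB : B = -(x 0 * x 1 * x 2 + x 0 * x 1 * x 3 + x 0 * x 2 * x 3 + x 1 * x 2 * x 3) := by
    rw [hs]; rw [hs] at hA; rw [hA] at a01; linear_combination a01
  refine ⟨hs, hA, hB, ?_⟩
  rw [hs] at hA hB ⊢
  have := hx 0
  rw [hA, hB] at this
  linear_combination this

/-- The algebra of the relation. -/
theorem three_relation {g₂ g₃ a t w κ : ℂ} {x : Fin 4 → ℂ} (ha : a ≠ 0) (hw0 : w ≠ 0)
    (hw1 : w ≠ 1) (hwk : w ≠ κ) (h0 : x 0 = t * a) (h1 : x 1 = (t - w) * a)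
    (h2 : x 2 = (t - 1) * a) (h3 : x 3 = (-3 * t + 1 + w) * a)
    (hκ : κ * (x 1 - x 3) = w * (x 2 - x 3))
    (hg2 : g₂ = -2 * (x 0 * x 1 + x 0 * x 2 + x 0 * x 3 + x 1 * x 2 + x 1 * x 3 + x 2 * x 3))
    (hg3 : g₃ = x 0 * x 1 * x 2 + x 0 * x 1 * x 3 + x 0 * x 2 * x 3 + x 1 * x 2 * x 3)
    (hI : -g₂ ^ 2 / 48 = x 0 * x 1 * x 2 * x 3) :
    κ ^ 2 - κ + 1 = 0 ∧
      g₂ = (a / (κ - w)) ^ 2 * ((9 * (w ^ 2 - 2 * (1 + κ) * w + 3 * κ) ^ 2 -
          24 * ((κ - w) * (1 - w) * (3 * κ - (1 + κ) * w))) / 12) ∧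
      g₂ ^ 3 - 27 * g₃ ^ 2 =
        (a / (κ - w)) ^ 6 * ((3 - 6 * κ) * (w * (w - 1) * (w - κ)) ^ 3) := by
  have hd : κ - w ≠ 0 := sub_ne_zero.2 hwk.symm
  set T := κ * (2 * w + 1) - 2 * w - w ^ 2 with hT
  set y₁ := T - 4 * (κ - w) * w with hy1
  set y₂ := T - 4 * (κ - w) with hy2
  set y₃ := -3 * T + 4 * (κ - w) * (1 + w) with hy3
  set s := a / (4 * (κ - w)) with hs
  have h4d : (4 : ℂ) * (κ - w) ≠ 0 := mul_ne_zero (by norm_num) hd
  have ht : t * (4 * (κ - w)) = T := by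
    refine mul_left_cancel₀ ha ?_
    rw [h1, h2, h3] at hκ
    rw [hT]
    linear_combination hκ
  have hsa : s * (4 * (κ - w)) = a := div_mul_cancel₀ _ h4d
  have x0 : x 0 = s * T := by rw [h0, ← ht, ← hsa]; ring
  have x1 : x 1 = s * y₁ := by rw [h1, hy1, ← ht, ← hsa]; ring
  have x2 : x 2 = s * y₂ := by rw [h2, hy2, ← ht, ← hsa]; ring
  have x3 : x 3 = s * y₃ := by rw [h3, hy3, ← ht, ← hsa]; ring
  set E2 := T * y₁ + T * y₂ + T * y₃ + y₁ * y₂ + y₁ * y₃ + y₂ * y₃ with hE2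
  set E3 := T * y₁ * y₂ + T * y₁ * y₃ + T * y₂ * y₃ + y₁ * y₂ * y₃ with hE3
  set E4 := T * y₁ * y₂ * y₃ with hE4
  have g2 : g₂ = s ^ 2 * (-2 * E2) := by rw [hg2, x0, x1, x2, x3, hE2]; ring
  have g3 : g₃ = s ^ 3 * E3 := by rw [hg3, x0, x1, x2, x3, hE3]; ring
  have hs0 : s ≠ 0 := div_ne_zero ha h4d
  have gI : 12 * E4 + E2 ^ 2 = 0 := by
    refine mul_left_cancel₀ (pow_ne_zero 4 hs0) ?_
    rw [g2, x0, x1, x2, x3] at hI
    rw [hE4]
    linear_combination -12 * hI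
  have hq : κ ^ 2 - κ + 1 = 0 := by
    have hne : (256 : ℂ) * (w * (w - 1) * (κ - w)) ^ 2 ≠ 0 := mul_ne_zero (by norm_num)
      (pow_ne_zero _ (mul_ne_zero (mul_ne_zero hw0 (sub_ne_zero.2 hw1)) hd))
    refine (mul_eq_zero.mp (?_ : (256 : ℂ) * (w * (w - 1) * (κ - w)) ^ 2 *
      (κ ^ 2 - κ + 1) = 0)).resolve_left hne
    rw [← gI, hE4, hE2, hy1, hy2, hy3, hT]
    ring
  have es : a / (κ - w) = 4 * s := by rw [hs]; field_simp
  refine ⟨hq, ?_, ?_⟩
  · rw [g2, es, hE2, hy1, hy2, hy3, hT]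
    ring
  · have eD : (-2 * E2) ^ 3 - 27 * E3 ^ 2 -
        4096 * ((3 - 6 * κ) * (w * (w - 1) * (w - κ)) ^ 3) =
        4096 * ((9/4)*w^2*κ^4 + (-17/2)*w^3*κ^3 + (-11/2)*w^3*κ^4 + (57/4)*w^4*κ^2 + (39/2)*w^4*κ^3 + (21/4)*w^4*κ^4 + (-12)*w^5*κ + (-69/2)*w^5*κ^2 + (-33/2)*w^5*κ^3 + (-3)*w^5*κ^4 + (4)*w^6 + (65/2)*w^6*κ + (63/2)*w^6*κ^2 + (17/2)*w^6*κ^3 + (1)*w^6*κ^4 + (-12)*w^7 + (-69/2)*w^7*κ + (-33/2)*w^7*κ^2 + (-3)*w^7*κ^3 + (57/4)*w^8 + (39/2)*w^8*κ + (21/4)*w^8*κ^2 + (-17/2)*w^9 + (-11/2)*w^9*κ + (9/4)*w^10) *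
          (κ ^ 2 - κ + 1) := by
      rw [hE2, hE3, hy1, hy2, hy3, hT]
      ring
    rw [hq, mul_zero, sub_eq_zero] at eD
    rw [g2, g3, es]
    linear_combination s ^ 6 * eD

variable {M : ℕ} [NeZero M] (L : Lev M)

theorem three_V_mem (hm : L.m = 3) (i : Fin 4) (τ : ℍ) :
    3 * divPt M (L.V i) τ ∈ (tauPair τ).lattice := by
  rw [show (3 : ℂ) * divPt M (L.V i) τ = divPt M (L.V i) τ + divPt M (L.V i) τ + divPt M (L.V i) τ
    by ring, ← divPt_add, ← divPt_add, divPt_mem_iff, NZ, not_not]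
  have h := L.eq
  rw [hm] at h
  constructor
  · exact ⟨(Model.base i).1, by simp only [Prod.fst_add, Model.Lev.V, h]; push_cast; ring⟩
  · exact ⟨(Model.base i).2, by simp only [Prod.snd_add, Model.Lev.V, h]; push_cast; ring⟩

/-- The relation at a point of the upper half plane. -/
theorem jFun_mul_three (hm : L.m = 3) (τ : ℍ) {w κ : ℂ}
    (hw : w = wpDiff M (L.V 0) (L.V 1) τ / wpDiff M (L.V 0) (L.V 2) τ)
    (hκ : κ = w * (wpDiff M (L.V 2) (L.V 3) τ / wpDiff M (L.V 1) (L.V 3) τ)) :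
    κ ^ 2 - κ + 1 = 0 ∧ Fermat.Agent.Period.jFun τ * ((3 - 6 * κ) * (w * (w - 1) * (w - κ)) ^ 3) =
      (9 * (w ^ 2 - 2 * (1 + κ) * w + 3 * κ) ^ 2 -
        24 * ((κ - w) * (1 - w) * (3 * κ - (1 + κ) * w))) ^ 3 := by
  haveI : NeZero 6 := ⟨by norm_num⟩
  let L₂ : Lev 6 := ⟨2, 3, Or.inl rfl, by norm_num, by norm_num⟩
  let P := halfPeriods L₂ rfl τ
  set x : Fin 4 → ℂ := fun i => (tauPair τ).weierstrassP (divPt M (L.V i) τ) with hx
  have hv : ∀ i, L.Valid i := fun i => Or.inr hm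
  have hnm : ∀ i, divPt M (L.V i) τ ∉ (tauPair τ).lattice := fun i => by
    rw [divPt_mem_iff, not_not]; exact L.nz_V i
  have hinj : Function.Injective x := fun i j hij => by
    by_contra hne
    refine L.not_pm (hv i) (hv j) hne ?_
    rcases wp_eq_iff_mem (tauPair τ) (hnm i) (hnm j) hij with h | h
    · rw [← divPt_sub, divPt_mem_iff, NZ, not_not] at h
      exact Or.inl h
    · rw [← divPt_add, divPt_mem_iff, NZ, not_not] at h
      exact Or.inr h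
  obtain ⟨hs, hA, hB, hC⟩ := quartic_vieta (A := -(tauPair τ).g₂ / 2) (B := -(tauPair τ).g₃)
    (C := -(tauPair τ).g₂ ^ 2 / 48) hinj fun i => by
      linear_combination wp_three P (three_V_mem L hm i τ) (hnm i)
  have hc : ((2 : ℂ) * Real.pi * Complex.I) ^ 2 ≠ 0 :=
    pow_ne_zero _ (by simp [Real.pi_ne_zero, Complex.I_ne_zero])
  simp only [wpDiff] at hw hκ
  rw [div_div_div_cancel_right₀ hc] at hw hκ
  change w = (x 0 - x 1) / (x 0 - x 2) at hw
  change κ = w * ((x 2 - x 3) / (x 1 - x 3)) at hκ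
  have d : ∀ i j, i ≠ j → x i - x j ≠ 0 := fun i j h => sub_ne_zero.2 (hinj.ne h)
  have hwa : w * (x 0 - x 2) = x 0 - x 1 := by rw [hw, div_mul_cancel₀ _ (d 0 2 (by decide))]
  have hk' : κ * (x 1 - x 3) = w * (x 2 - x 3) := by
    rw [hκ, mul_assoc, div_mul_cancel₀ _ (d 1 3 (by decide))]
  have hw0 : w ≠ 0 := by rw [hw]; exact div_ne_zero (d 0 1 (by decide)) (d 0 2 (by decide))
  have hw1 : w ≠ 1 := fun e => d 2 1 (by decide) (by rw [e, one_mul] at hwa; linear_combination hwa.symm)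
  have hwk : w ≠ κ := fun e => d 2 1 (by decide) (by
    refine mul_left_cancel₀ hw0 ?_
    rw [← e] at hk'
    linear_combination -hk')
  set a := x 0 - x 2 with ha
  have ha0 : a ≠ 0 := d 0 2 (by decide)
  have e0 : x 0 = x 0 / a * a := (div_mul_cancel₀ _ ha0).symm
  obtain ⟨hq, hG, hD⟩ := three_relation (g₂ := (tauPair τ).g₂) (g₃ := (tauPair τ).g₃) (t := x 0 / a)
    (w := w) (κ := κ) (x := x) ha0 hw0 hw1 hwk e0
    (by linear_combination e0 + hwa) (by linear_combination e0 + ha)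
    (by linear_combination hs - 3 * e0 - ha - hwa) hk'
    (by linear_combination -2 * hA) (by linear_combination -hB) hC
  refine ⟨hq, ?_⟩
  have hΔ0 : Δ τ ≠ 0 := ModularForm.discriminant_ne_zero τ
  have hdisc := ModularForm.discriminant_eq_E₄_cube_sub_E₆_sq τ
  have hpi : (Real.pi : ℂ) ≠ 0 := by simp [Real.pi_ne_zero]
  rw [g₂_tauPair] at hG
  rw [g₂_tauPair, g₃_tauPair] at hD
  set s := a / (κ - w)
  have hs0 : s ≠ 0 := div_ne_zero ha0 (sub_ne_zero.2 hwk.symm)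
  set c4 := 9 * (w ^ 2 - 2 * (1 + κ) * w + 3 * κ) ^ 2 -
    24 * ((κ - w) * (1 - w) * (3 * κ - (1 + κ) * w))
  set D := (3 - 6 * κ) * (w * (w - 1) * (w - κ)) ^ 3
  clear_value c4 D s
  rw [Fermat.Agent.Period.jFun, div_mul_eq_mul_div, div_eq_iff hΔ0]
  apply mul_left_cancel₀ (mul_ne_zero (pow_ne_zero 12 hpi) (pow_ne_zero 6 hs0))
  have hG3 := congrArg (· ^ 3) hG
  simp only [mul_pow] at hG3
  rw [hdisc] at *
  linear_combination (27 / 64 * s ^ 6 * D) * hG3 - (27 / 64 * s ^ 6 * c4 ^ 3 / 1728) * hD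

end Fermat.Agent.Moduli
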