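/-
S59, unit F1 at `2`: ramification over the line of `j` in characteristic two, seen through the
coordinate of level three.
-/
import Fermat.Agent.LL.Mazur.TameOdd
import Fermat.Agent.R59.Mazur.Two.Charts
import Fermat.Agent.R59.Mazur.Two.ThreeRelation

set_option autoImplicit false
set_option linter.style.haveILetI false
set_option linter.unusedSectionVars false

noncomputable section

namespace Fermat.Agent.R59

open Fermat.Agent.MCurve.Spec
open Fermat.Agent.MCurve
open AlgebraicCurve ModularCurve Polynomial IsLocalRing CongruenceSubgroup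
open Fermat.Agent.GalRep (modFuns jMF)
open Fermat.Agent.GalRep.Model (Lev WFld lvlField)
open scoped MatrixGroups

local notation "Q̄" => AlgebraicClosure ℚ
local notation "ℍ" => UpperHalfPlane

/-! ## Roots in characteristic two -/

section Roots

variable {F : Type*} [Field F] (h2 : (2 : F) = 0) {b : F} (hb : b ^ 2 - b + 1 = 0)

include hb in
theorem rel_two_ne_zero (h2 : (2 : F) = 0) (c : F) :
    (X ^ 2 + C b) ^ 6 - C c * (X * (X - 1) * (X - C b)) ^ 3 ≠ (0 : F[X]) := fun h => by
  have h0 := congrArg (eval 0) h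
  simp at h0
  rw [h0] at hb
  exact one_ne_zero (α := F) (by linear_combination hb)

include h2 hb in
/-- Roots of `(X² + b)⁶ - c g³` are simple or `c = 0` and the root has multiplicity twelve. -/
theorem rootMultiplicity_rel_two (c β : F)
    (hpos : 0 < rootMultiplicity β ((X ^ 2 + C b) ^ 6 - C c * (X * (X - 1) * (X - C b)) ^ 3 : F[X])) :
    rootMultiplicity β ((X ^ 2 + C b) ^ 6 - C c * (X * (X - 1) * (X - C b)) ^ 3 : F[X]) = 1 ∨
      rootMultiplicity β ((X ^ 2 + C b) ^ 6 - C c * (X * (X - 1) * (X - C b)) ^ 3 : F[X]) = 12 ∧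
        c = 0 := by
  set P : F[X] := (X ^ 2 + C b) ^ 6 - C c * (X * (X - 1) * (X - C b)) ^ 3 with hP
  have hP0 : P ≠ 0 := rel_two_ne_zero hb h2 c
  have hr : IsRoot P β := ((rootMultiplicity_pos hP0).mp hpos)
  have e0 : (β ^ 2 + b) ^ 6 - c * (β * (β - 1) * (β - b)) ^ 3 = 0 := by
    have := hr
    rw [IsRoot.def, hP] at this
    simpa using this
  rcases eq_or_ne c 0 with rfl | hc
  · right
    refine ⟨?_, rfl⟩
    have h2X : (2 : F[X]) = 0 := by rw [← map_ofNat C, h2, map_zero]
    have hsq : (X - C (b ^ 2)) ^ 2 = X ^ 2 + C b := by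
      have hb4 : b ^ 4 = b := by linear_combination (b ^ 2 + b) * hb - b * h2
      have : (C (b ^ 2) : F[X]) ^ 2 = C b := by rw [← map_pow, ← pow_mul, hb4]
      linear_combination this - X * C (b ^ 2) * h2X
    have hPe : P = (X - C (b ^ 2)) ^ 12 := by
      rw [hP, map_zero, zero_mul, sub_zero, ← hsq, ← pow_mul]
    have hβ : β = b ^ 2 := by
      rw [hPe, IsRoot.def] at hr
      simpa [sub_eq_zero] using hr
    rw [hPe, hβ, rootMultiplicity_X_sub_C_pow]
  · left
    have hg : β * (β - 1) * (β - b) ≠ 0 := fun hg => by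
      rw [hg] at e0
      have h6 : β ^ 2 + b = 0 := pow_eq_zero_iff (n := 6) (by norm_num) |>.mp (by linear_combination e0)
      have key : b * (b ^ 2 + b) = 0 ∨ b = 0 ∨ b + 1 = 0 := by
        rcases mul_eq_zero.mp hg with h | h
        · rcases mul_eq_zero.mp h with h | h
          · exact Or.inr (Or.inl (by linear_combination h6 - β * h))
          · exact Or.inr (Or.inr (by linear_combination h6 - (β + 1) * h))
        · exact Or.inl (by linear_combination b * h6 - b * (β + b) * h)
      have hb1 : b = 0 ∨ b + 1 = 0 := by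
        rcases key with h | h
        · rcases mul_eq_zero.mp h with h | h
          · exact Or.inl h
          · rcases mul_eq_zero.mp (show b * (b + 1) = 0 by linear_combination h) with h | h
            · exact Or.inl h
            · exact Or.inr h
        · exact h
      rcases hb1 with h | h
      · exact one_ne_zero (α := F) (by linear_combination hb - (b - 1) * h)
      · exact one_ne_zero (α := F) (by linear_combination hb - (b - 2) * h - h2)
    have h1 : ¬ 1 < rootMultiplicity β P := fun h => by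
      have hd := ((one_lt_rootMultiplicity_iff_isRoot hP0).mp h).2
      rw [IsRoot.def, hP] at hd
      simp [derivative_pow] at hd
      have : c * ((β * (β - 1) * (β - b)) ^ 2 * (β ^ 2 + b)) = 0 := by
        linear_combination hd + (-(6 * β) * (β ^ 2 + b) ^ 5 +
          c * (β * (β - 1) * (β - b)) ^ 2 * (5 * β ^ 2 - 3 * (1 + b) * β + 2 * b)) * h2
      rcases mul_eq_zero.mp this with h | h
      · exact hc h
      · have h6 := (mul_eq_zero.mp h).resolve_left (pow_ne_zero _ hg)
        rw [h6] at e0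
        exact mul_ne_zero hc (pow_ne_zero 3 hg) (by linear_combination -e0)
    omega

end Roots

/-! ## The relation over `A` -/

variable {M : ℕ} [NeZero M] (A : ValuationSubring Q̄) [hu : Fact (IsUnit (M : A))] (L : Lev M)

/-- The numerator `c₄` in the coordinate of level three. -/
def c4Three (κ : A) : A[X] :=
  9 * (X ^ 2 - 2 * (1 + C κ) * X + 3 * C κ) ^ 2 -
    24 * ((C κ - X) * (1 - X) * (3 * C κ - (1 + C κ) * X))

/-- The relation of level three. -/
theorem jK_mul_three (hm : L.m = 3) :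
    L.kappa (cyc M A) ^ 2 - L.kappa (cyc M A) + 1 = 0 ∧
    jK A L * ((3 - 6 * algebraMap A (LK M A) (L.kappa (cyc M A))) *
        (L.w (cyc M A) * (L.w (cyc M A) - 1) *
          (L.w (cyc M A) - algebraMap A (LK M A) (L.kappa (cyc M A)))) ^ 3) =
      (9 * (L.w (cyc M A) ^ 2 - 2 * (1 + algebraMap A (LK M A) (L.kappa (cyc M A))) * L.w (cyc M A) +
          3 * algebraMap A (LK M A) (L.kappa (cyc M A))) ^ 2 -
        24 * ((algebraMap A (LK M A) (L.kappa (cyc M A)) - L.w (cyc M A)) * (1 - L.w (cyc M A)) *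
          (3 * algebraMap A (LK M A) (L.kappa (cyc M A)) -
            (1 + algebraMap A (LK M A) (L.kappa (cyc M A))) * L.w (cyc M A)))) ^ 3 := by
  set Φ := GalRep.Model.ratMF (cyc M A) (L.vq 0 1 0 2 L.valid0 L.valid2 (by decide)) with hΦ
  set Ψ := GalRep.Model.ratMF (cyc M A) (L.vq 2 3 1 3 L.valid1 (Or.inr hm) (by decide)) with hΨ
  set K := Φ * Ψ with hK
  have key := fun τ : ℍ => Moduli.jFun_mul_three L hm τ
    (w := (Φ : ℍ → ℂ) τ) (κ := (K : ℍ → ℂ) τ) rfl rfl
  have e1 : K ^ 2 - K + 1 = 0 := Subtype.ext (funext fun τ => (key τ).1)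
  have e2 : jMF (Gamma M) * ((3 - 6 * K) * (Φ * (Φ - 1) * (Φ - K)) ^ 3) =
      (9 * (Φ ^ 2 - 2 * (1 + K) * Φ + 3 * K) ^ 2 -
        24 * ((K - Φ) * (1 - Φ) * (3 * K - (1 + K) * Φ))) ^ 3 :=
    Subtype.ext (funext fun τ => (key τ).2)
  have hw : ((L.w (cyc M A) : LK M A) : WFld M) = algebraMap (modFuns (Gamma M)) (WFld M) Φ := rfl
  have hk : ((algebraMap A (LK M A) (L.kappa (cyc M A)) : LK M A) : WFld M) =
      algebraMap (modFuns (Gamma M)) (WFld M) K := by
    have h1 : algebraMap A (LK M A) (L.kappa (cyc M A)) = L.w (cyc M A) *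
        GalRep.Model.rat (cyc M A) (L.vq 2 3 1 3 L.valid1 (Or.inr hm) (by decide)) := by
      rw [Lev.kappa, dif_pos hm]
      exact (L.exists_kappa (cyc M A) hm).choose_spec.symm
    rw [h1, hK, map_mul]
    rfl
  refine ⟨?_, ?_⟩
  · have h1 := congrArg (algebraMap (modFuns (Gamma M)) (WFld M)) e1
    simp only [map_sub, map_add, map_pow, map_one, map_zero, ← hk] at h1
    have h2 : algebraMap A (LK M A) (L.kappa (cyc M A) ^ 2 - L.kappa (cyc M A) + 1) = 0 := by
      simp only [map_sub, map_add, map_pow, map_one]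
      exact Subtype.ext h1
    rw [IsScalarTower.algebraMap_apply A Q̄ (LK M A), map_eq_zero] at h2
    exact Subtype.ext h2
  · refine Subtype.ext ?_
    have := congrArg (algebraMap (modFuns (Gamma M)) (WFld M)) e2
    simp only [map_mul, map_pow, map_sub, map_add, map_one, map_ofNat, ← hw, ← hk] at this
    exact this

theorem cuspPoly_three (hm : L.m = 3) :
    L.cuspPoly (cyc M A) = X * (X - 1) * (X - C (L.kappa (cyc M A))) := by
  have hJ : L.J = {0, 2, 3} := by simp [Lev.J, hm]
  rw [Lev.cuspPoly, hJ, Finset.prod_insert (by decide), Finset.prod_pair (by decide)]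
  simp [Lev.cval]
  ring

/-- The numerator of `j` in the coordinate of level three. -/
theorem relW_three (hm : L.m = 3) :
    (exists_relW A L).choose * C (3 - 6 * L.kappa (cyc M A)) = c4Three A (L.kappa (cyc M A)) ^ 3 := by
  refine L.aeval_w_injective (cyc M A) ?_
  rw [map_mul, ← (exists_relW A L).choose_spec.1, cuspPoly_three A L hm, hm, c4Three]
  simp only [map_mul, map_pow, map_sub, map_add, map_one, map_ofNat, aeval_X, aeval_C]
  rw [← (jK_mul_three A L hm).2]
  ring

local notation "k" => ResidueField A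
local notation "Jq" => qExpand (ResidueField A) M (jqModC (ResidueField A))

theorem residue_kappa (hm : L.m = 3) (hA : A.LiesOverPrime 2) :
    residue A (L.kappa (cyc M A)) ^ 2 - residue A (L.kappa (cyc M A)) + 1 = 0 := by
  simpa using congrArg (residue A) (jK_mul_three A L hm).1

theorem coverW_N_three (hm : L.m = 3) (hA : A.LiesOverPrime 2) :
    (coverW A L).N.map (residue A) = (X ^ 2 + C (residue A (L.kappa (cyc M A)))) ^ 6 := by
  haveI : CharP k 2 := GalRep.charP_residue (A := A) Nat.prime_two hA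
  have h2 : (2 : k[X]) = 0 := by rw [← map_ofNat C, CharTwo.two_eq_zero, map_zero]
  show (exists_relW A L).choose.map (residue A) = _
  have h := congrArg (Polynomial.map (residue A)) (relW_three A L hm)
  simp only [c4Three, Polynomial.map_mul, Polynomial.map_pow, Polynomial.map_sub, Polynomial.map_add,
    Polynomial.map_one, Polynomial.map_ofNat, map_C, map_X, map_sub, map_mul, map_ofNat] at h
  have e : (3 : k[X]) - 6 * C (residue A (L.kappa (cyc M A))) = 1 := by
    linear_combination (1 - 3 * C (residue A (L.kappa (cyc M A)))) * h2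
  rw [e, mul_one] at h
  rw [h]
  set b : k[X] := C (residue A (L.kappa (cyc M A)))
  rw [show (9 : k[X]) * (X ^ 2 - 2 * (1 + b) * X + 3 * b) ^ 2 -
    24 * ((b - X) * (1 - X) * (3 * b - (1 + b) * X)) = (X ^ 2 + b) ^ 2 by
    linear_combination (4 * (X ^ 2 - 2 * (1 + b) * X + 3 * b) ^ 2
      - 12 * ((b - X) * (1 - X) * (3 * b - (1 + b) * X))
      + (b - (1 + b) * X) * ((X ^ 2 - 2 * (1 + b) * X + 3 * b) + (X ^ 2 + b))) * h2, ← pow_mul]

theorem coverW_D_three (hm : L.m = 3) :
    (coverW A L).D.map (residue A) = (X * (X - 1) * (X - C (residue A (L.kappa (cyc M A))))) ^ 3 := by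
  show (L.cuspPoly (cyc M A) ^ L.m).map (residue A) = _
  rw [cuspPoly_three A L hm, hm]
  simp

theorem rootMultiplicity_coverI_three (hm : L.m = 3) (x : k)
    (hx : ((coverI A L).N.map (residue A)).eval x = 0) : ∃ i, 0 < i ∧ i ≤ 4 ∧
      (coverI A L).N.map (residue A) ≠ 0 ∧
      rootMultiplicity x ((coverI A L).N.map (residue A)) = 3 * i := by
  classical
  have hdeg : (exists_relW A L).choose.natDegree = 4 + (4 + 4) := by
    rw [(exists_relW A L).choose_spec.2.2.2, hm]
    simp [Lev.J, hm]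
  set T := taylor (beta0 A L) (L.cuspPoly (cyc M A)) with hT
  have hT3 : T.natDegree ≤ 4 := by
    rw [hT, natDegree_taylor, Lev.cuspPoly, natDegree_prod_of_monic _ _ fun i _ => monic_X_sub_C _]
    simp [Lev.J, hm]
  have hN : (coverI A L).N = reflect 4 T ^ 3 := by
    show revT A L _ = _
    rw [revT, hdeg, hm, taylor_pow, ← hT, pow_three, pow_three,
      reflect_mul _ _ hT3 (natDegree_mul_le.trans (Nat.add_le_add hT3 hT3)),
      reflect_mul _ _ hT3 hT3]
  set Q := (reflect 4 T).map (residue A) with hQ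
  rw [hN, Polynomial.map_pow, ← hQ] at hx ⊢
  have hQ0 : Q ≠ 0 := fun h => by
    have h1 := congrArg (fun p : k[X] => p.coeff 1) h
    simp only [hQ, coeff_map, coeff_reflect, coeff_zero, revAt_le (show 1 ≤ 4 by norm_num)] at h1
    refine one_ne_zero (α := k) ?_
    rw [← h1, show T.coeff 3 = 1 from ?_, map_one]
    have hmon : T.Monic := (leadingCoeff_taylor _ _).trans (by
      rw [Lev.cuspPoly]; exact monic_prod_of_monic _ _ fun i _ => monic_X_sub_C _)
    have : T.natDegree = 3 := by
      rw [hT, natDegree_taylor, Lev.cuspPoly, natDegree_prod_of_monic _ _ fun i _ => monic_X_sub_C _]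
      simp [Lev.J, hm]
    simpa [this] using hmon.coeff_natDegree
  have hr : Q.IsRoot x := (pow_eq_zero_iff three_ne_zero).mp (by rwa [eval_pow] at hx)
  refine ⟨rootMultiplicity x Q, (rootMultiplicity_pos hQ0).mpr hr, ?_, pow_ne_zero _ hQ0, ?_⟩
  · have h1 := natDegree_le_of_dvd (pow_rootMultiplicity_dvd Q x) hQ0
    rw [natDegree_pow, natDegree_X_sub_C, mul_one] at h1
    exact h1.trans (natDegree_map_le.trans (natDegree_reflect_le.trans (by omega)))
  · rw [pow_three, rootMultiplicity_mul (mul_ne_zero hQ0 (mul_ne_zero hQ0 hQ0)),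
      rootMultiplicity_mul (mul_ne_zero hQ0 hQ0)]
    omega

variable (hA : A.LiesOverPrime 2)

set_option maxHeartbeats 1600000 in
include hA in
/-- At every non-trivial place some `j - c` has order one or a divisor of twelve with `c = 0`, or
`j⁻¹` has order dividing `k M`, `k ≤ 4`. -/
theorem exists_tame_two (h3 : 3 ∣ M) (h5 : 5 ≤ M)
    (Wv : ValuationSubring (redFld M A))
    (hk : ∀ (x : redFld M A) (c : k), (x : LaurentSeries k) = HahnSeries.C c → x ∈ Wv)
    (hne : Wv ≠ ⊤) :
    ∃ u : redFld M A, u ≠ 0 ∧ Wv.valuation u < 1 ∧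
      (∀ x : redFld M A, x ≠ 0 → ∃ n : ℤ, Wv.valuation x = Wv.valuation u ^ n) ∧
      ∃ n : ℕ, 0 < n ∧
        ((∃ (c : k) (z : redFld M A), (z : LaurentSeries k) = Jq - HahnSeries.C c ∧
            Wv.valuation z = Wv.valuation u ^ n ∧ (n = 1 ∨ n ∣ 12 ∧ c = 0)) ∨
          (∃ i, 0 < i ∧ i ≤ 4 ∧ n ∣ M * i) ∧
            ∃ z : redFld M A, (z : LaurentSeries k) = Jq ∧ Wv.valuation z⁻¹ = Wv.valuation u ^ n) := by
  classical
  haveI : CharP k 2 := GalRep.charP_residue (A := A) Nat.prime_two hA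
  let L : Lev M := levThree h3 h5
  have hm : L.m = 3 := rfl
  set κ₀ := residue A (L.kappa (cyc M A))
  obtain ⟨V, hle, hV, hker⟩ := exists_gauss_rS A L
  obtain ⟨ψ, hψ⟩ := exists_redEmb A hle hker
  obtain ⟨V', hV'⟩ := exists_valuationSubring_comap ψ Wv
  let f : intHol M A → redFld M A := fun x => ⟨rS A x, rS_mem_redFld A x⟩
  let ch : intHol M A → chart A (jK A L) := fun x => ⟨x, intHol_le_chart A L x.2⟩
  have hred : ∀ x, ψ (f x) = hV.red (ch x) := fun x => hψ x
  have h20 : (2 : k) = 0 := CharTwo.two_eq_zero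
  -- constants
  let cI : A → intHol M A := fun a => ⟨_, lvlHol_le_intHol A (algebraMap_mem_lvlHol A a)⟩
  have hcI : ∀ a, (f (cI a) : LaurentSeries k) = HahnSeries.C (residue A a) := rS_algebraMap A
  have hcψ : ∀ a, ψ (f (cI a)) = hV.theta (residue A a) := fun a => by
    rw [hred, hV.theta_residue]; rfl
  have hk' : ∀ c, hV.theta c ∈ V' := fun c => by
    obtain ⟨a, rfl⟩ := residue_surjective c
    rw [← hcψ, hV']
    exact hk _ _ (hcI a)
  let jI : intHol M A := ⟨_, lvlHol_le_intHol A (jK_mem_lvlHol A L)⟩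
  have hjI : (f jI : LaurentSeries k) = Jq := rS_jK A L
  have hjψ : ψ (f jI) = hV.redT := hred jI
  -- conjugates of a non-zero reduction
  have hconj : ∀ x : intHol M A, f x ≠ 0 → ∀ (σ : LK M A ≃ₐ[Q̄] LK M A), σ ∈ fullG M A →
      ∀ hy : σ (x : LK M A) ∈ chart A (jK A L), hV.red ⟨_, hy⟩ ≠ 0 := fun x hx σ hσ hy h => by
    obtain ⟨hσx, hne0⟩ := rS_fullG_ne_zero A (x := x) (fun h0 => hx (Subtype.ext h0)) hσ
    exact hne0 ((hker ⟨_, hσx⟩).mp h)
  have hquot : ∀ (τ : V'.ValueGroup), τ ≠ 0 →
      (∀ x : intHol M A, f x ≠ 0 → ∃ a : ℤ, V'.valuation (ψ (f x)) = τ ^ a) →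
      ∀ y : redFld M A, y ≠ 0 → ∃ a : ℤ, V'.valuation (ψ y) = τ ^ a := fun τ hτ h y hy => by
    obtain ⟨a, b, hab⟩ := (mem_redFld_iff A).mp y.2
    have hb : f b ≠ 0 := fun h0 => hy (Subtype.ext (by
      rw [← hab, show rS A b = 0 from congrArg Subtype.val h0, div_zero]; rfl))
    have ha : f a ≠ 0 := fun h0 => hy (Subtype.ext (by
      rw [← hab, show rS A a = 0 from congrArg Subtype.val h0, zero_div]; rfl))
    obtain ⟨i, hi⟩ := h a ha
    obtain ⟨j, hj⟩ := h b hb
    refine ⟨i - j, ?_⟩
    rw [show y = f a / f b from Subtype.ext hab.symm, map_div₀, map_div₀, hi, hj, zpow_sub₀ hτ]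
  by_cases hJ : hV.redT ∈ V'
  · -- finite places
    by_cases hno : ∃ c, V'.valuation (hV.redT - hV.theta c) < 1
    swap
    · push Not at hno
      refine absurd ?_ hne
      refine SetLike.ext fun y => iff_of_true ?_ trivial
      rcases eq_or_ne y 0 with rfl | hy
      · exact zero_mem Wv
      obtain ⟨a, b, hab⟩ := (mem_redFld_iff A).mp y.2
      have hone : ∀ x : intHol M A, f x ≠ 0 → V'.valuation (ψ (f x)) = 1 := fun x hx => by
        rw [hred]
        refine hV.red_val_eq_one V' hk' hJ (fun c => not_lt.mpr (hno c)) fun h0 => hx ?_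
        exact (map_eq_zero ψ).mp ((hred x).trans h0)
      have hb : f b ≠ 0 := fun h0 => hy (Subtype.ext (by
        rw [← hab, show rS A b = 0 from congrArg Subtype.val h0, div_zero]; rfl))
      have ha : f a ≠ 0 := fun h0 => hy (Subtype.ext (by
        rw [← hab, show rS A a = 0 from congrArg Subtype.val h0, zero_div]; rfl))
      rw [← hV', ← V'.valuation_le_one_iff, show y = f a / f b from Subtype.ext hab.symm,
        map_div₀, map_div₀, hone a ha, hone b hb, div_one]
    obtain ⟨c, hc⟩ := hno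
    let W := coverW A L
    have hres : residue V' ⟨_, hJ⟩ = residue V' ⟨_, hk' c⟩ := by
      rw [← sub_eq_zero, ← map_sub, residue_eq_zero_iff]
      exact (V'.valuation_lt_one_iff _).mpr hc
    obtain ⟨χ, hχ, hχc, hcomp⟩ := W.exists_compat hV V' hk' hJ hres
    obtain ⟨U⟩ := unif_coverW A L χ hχ
    haveI := W.fin.hasPrincipalDivisors
    set D := W.disc χ hχ
    have hcard : Nat.card D.stab = 1 := card_stab_coverW A L χ hχ
    set τ := V'.valuation (hV.red U.t)
    have hτ0 : τ ≠ 0 := (_root_.map_ne_zero _).mpr (hcomp.rho_t_ne_zero U)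
    have hτ1 : τ < 1 := hcomp.rho_t_lt_one U
    have hall := hquot τ hτ0 fun x hx => ⟨D.tot (x : LK M A), by
      rw [hred]
      exact hcomp.val_eq_zpow U (x := ch x)
        fun g => hconj x hx (g : LK M A ≃ₐ[Q̄] LK M A) (W.le g.2) (D.act g (ch x)).2⟩
    obtain ⟨a, rfl⟩ := residue_surjective c
    set z := f jI - f (cI a) with hz
    have hzs : (z : LaurentSeries k) = Jq - HahnSeries.C (residue A a) := by
      rw [← hjI, ← hcI]; rfl
    set P : k[X] := (X ^ 2 + C κ₀) ^ 6 -
      C (residue A a) * (X * (X - 1) * (X - C κ₀)) ^ 3 with hP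
    have hPmap : (W.N - C a * W.D).map (residue A) = P := by
      rw [Polynomial.map_sub, Polynomial.map_mul, map_C, coverW_N_three A L hm hA,
        coverW_D_three A L hm]
    have hκ := residue_kappa A L hm hA
    have hP0 : P ≠ 0 := rel_two_ne_zero hκ h20 _
    set n := rootMultiplicity (χ W.T') P
    have hval : V'.valuation (ψ z) = τ ^ n := by
      have e : V'.valuation (hV.red ((⟨W.t₀, self_mem_chart A _⟩ : chart A W.t₀) - W.cst a)) *
          V'.valuation (hV.red (W.pol W.D)) = V'.valuation (hV.red (W.pol (W.N - C a * W.D))) :=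
        (map_mul V'.valuation _ _).symm.trans (congrArg V'.valuation
          ((map_mul hV.red _ _).symm.trans (congrArg hV.red (W.pol_rel a))))
      have h1 : V'.valuation (hV.red (W.pol (W.N - C a * W.D))) = τ ^ n := by
        have := hcomp.val_polyB U (P := W.N - C a * W.D) (by rw [hPmap]; exact hP0)
        rw [hcard, one_mul] at this
        rw [show n = rootMultiplicity (χ W.T') ((W.N - C a * W.D).map (residue A)) by rw [hPmap]]
        exact this
      have hD1 : V'.valuation (hV.red (W.pol W.D)) = 1 := hcomp.eq_one (y := W.pol W.D) (by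
        show χ _ ≠ 0
        rw [Cover.hom_pol hχ]
        exact Cover.D_eval_ne hχ)
      rw [h1, hD1, mul_one] at e
      rw [← e, hz, map_sub ψ, hjψ, hred (cI a)]
      exact congrArg V'.valuation (map_sub hV.red _ _).symm
    have hn : 0 < n := Nat.pos_of_ne_zero fun h0 => by
      rw [h0, pow_zero, hz, map_sub, hjψ, hcψ] at hval
      exact hc.ne hval
    obtain ⟨u, hu0, hu1, hux, m, hm0, hmn, hzu⟩ := exists_uniformiser ψ Wv hV' hτ0 hτ1 hall hn hval
    refine ⟨u, hu0, hu1, hux, m, hm0, Or.inl ⟨_, z, hzs, hzu, ?_⟩⟩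
    rcases rootMultiplicity_rel_two h20 hκ _ _ hn with h | ⟨h, hc0⟩
    · exact Or.inl (Nat.dvd_one.mp (h ▸ hmn))
    · exact Or.inr ⟨h ▸ hmn, hc0⟩
  · -- places over infinity
    let W := coverI A L
    have hVI : IsGauss A W.t₀ V := hV.inv
    have hj0 : jK A L ≠ 0 := fun h => transcendental_jK A L (h ▸ isAlgebraic_zero)
    have hT0 : hV.redT ≠ 0 := fun h => hJ (h ▸ zero_mem V')
    have hredI : hVI.redT = hV.redT⁻¹ := by
      refine eq_inv_of_mul_eq_one_left ?_
      show residue V _ * residue V _ = 1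
      rw [← map_mul, ← map_one (residue V)]
      exact congrArg _ (Subtype.ext (inv_mul_cancel₀ hj0))
    have hkI : ∀ c, hVI.theta c ∈ V' := hk'
    have htI : hVI.redT ∈ V' := by rw [hredI]; exact (V'.mem_or_inv_mem _).resolve_left hJ
    have hlt : V'.valuation hVI.redT < 1 := by
      rw [hredI, map_inv₀, inv_lt_one₀ (zero_lt_iff.mpr ((_root_.map_ne_zero _).mpr hT0))]
      exact not_le.mp fun h => hJ ((V'.valuation_le_one_iff _).mp h)
    have hc0 : residue V' ⟨_, htI⟩ = residue V' ⟨_, hkI 0⟩ := by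
      rw [show (⟨_, hkI 0⟩ : V') = 0 from Subtype.ext (map_zero _), map_zero, residue_eq_zero_iff]
      exact (V'.valuation_lt_one_iff _).mpr hlt
    obtain ⟨χ, hχ, hχ0, hcomp⟩ := W.exists_compat hVI V' hkI htI hc0
    obtain ⟨U⟩ := unif_coverI A L hχ hχ0
    haveI := W.fin.hasPrincipalDivisors
    set D := W.disc χ hχ
    set e := Nat.card D.stab
    have he : e ∣ L.e := card_stab_coverI_dvd A L hχ hχ0
    set τ := V'.valuation (hVI.red U.t)
    have hτ0 : τ ≠ 0 := (_root_.map_ne_zero _).mpr (hcomp.rho_t_ne_zero U)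
    have hτ1 : τ < 1 := hcomp.rho_t_lt_one U
    -- the value of `j⁻¹`
    obtain ⟨i, hi0, hi4, hPN0, hmult⟩ := rootMultiplicity_coverI_three A L hm (χ W.T') (by
      have e1 : (⟨W.t₀, self_mem_chart A _⟩ : chart A W.t₀) * W.pol W.D = W.pol W.N :=
        Subtype.ext W.rel
      have h1 := congrArg χ e1
      rw [map_mul, hχ0, zero_mul, Cover.hom_pol hχ] at h1
      exact h1.symm)
    have hvalT : V'.valuation hVI.redT = τ ^ (e * (3 * i)) := by
      have e1 : (⟨W.t₀, self_mem_chart A _⟩ : chart A W.t₀) * W.pol W.D = W.pol W.N :=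
        Subtype.ext W.rel
      have h1 := congrArg (fun y : chart A W.t₀ => V'.valuation (hVI.red y)) e1
      simp only [map_mul] at h1
      have hD1 : V'.valuation (hVI.red (W.pol W.D)) = 1 := hcomp.eq_one (y := W.pol W.D) (by
        show χ _ ≠ 0
        rw [Cover.hom_pol hχ]
        exact Cover.D_eval_ne hχ)
      have h2' := hcomp.val_polyB U (P := W.N) hPN0
      rw [show rootMultiplicity (D.χ D.T') (W.N.map (residue A)) = 3 * i from hmult] at h2'
      rw [hD1, mul_one] at h1
      exact h1.trans h2'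
    have hall := hquot τ hτ0 fun x hx => by
      obtain ⟨n₀, hn₀⟩ := exists_inv_pow_mul_mem hj0 (ch x).2
      have hs : ∀ σ ∈ fullG M A,
          σ ((x : LK M A) * (jK A L)⁻¹ ^ n₀) = σ (x : LK M A) * (jK A L)⁻¹ ^ n₀ := fun σ hσ => by
        rw [map_mul, map_pow, map_inv₀, fullG_jK A L hσ]
      have hsplit : ∀ (y : chart A (jK A L))
          (hy : (y : LK M A) * (jK A L)⁻¹ ^ n₀ ∈ chart A W.t₀),
          hVI.red ⟨_, hy⟩ = hV.red y * hVI.redT ^ n₀ := fun y hy => by
        show residue V _ = residue V _ * residue V _ ^ n₀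
        rw [← map_pow, ← map_mul]
        exact congrArg _ (Subtype.ext rfl)
      let y : chart A W.t₀ := ⟨_, hn₀ n₀ le_rfl⟩
      have hy := hcomp.val_eq_zpow U (x := y) fun g => by
        have hσx : (g : LK M A ≃ₐ[Q̄] LK M A) (x : LK M A) ∈ chart A (jK A L) :=
          (coverW A L).map_chart (W.le g.2) (ch x).2
        have e1 : ((D.act g y : D.B) : LK M A) =
            (g : LK M A ≃ₐ[Q̄] LK M A) (x : LK M A) * (jK A L)⁻¹ ^ n₀ := hs _ (W.le g.2)
        have hm' : (g : LK M A ≃ₐ[Q̄] LK M A) (x : LK M A) * (jK A L)⁻¹ ^ n₀ ∈ chart A W.t₀ :=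
          e1 ▸ (D.act g y).2
        rw [show D.act g y = (⟨_, hm'⟩ : chart A W.t₀) from Subtype.ext e1]
        refine ne_of_eq_of_ne (hsplit ⟨_, hσx⟩ hm') ?_
        exact mul_ne_zero (hconj x hx _ (W.le g.2) hσx)
          (pow_ne_zero _ (by rw [hredI]; exact inv_ne_zero hT0))
      refine ⟨D.tot (y : LK M A) - ((e * (3 * i) : ℕ) : ℤ) * n₀, ?_⟩
      have hy := (congrArg V'.valuation (hsplit (ch x) y.2)).symm.trans hy
      rw [map_mul, map_pow, hvalT] at hy
      rw [hred, zpow_sub₀ hτ0, zpow_mul, zpow_natCast, zpow_natCast,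
        eq_div_iff (pow_ne_zero _ (pow_ne_zero _ hτ0))]
      exact hy
    have hN : 0 < e * (3 * i) := by
      haveI : Nonempty D.stab := ⟨⟨1, fun y => congrArg D.χ (Subtype.ext rfl)⟩⟩
      exact Nat.mul_pos Nat.card_pos (by omega)
    have hval : V'.valuation (ψ (f jI)⁻¹) = τ ^ (e * (3 * i)) := by
      rw [map_inv₀, hjψ, ← hredI]; exact hvalT
    obtain ⟨u, hu0, hu1, hux, m, hm0, hmn, hzu⟩ := exists_uniformiser ψ Wv hV' hτ0 hτ1 hall hN hval
    refine ⟨u, hu0, hu1, hux, m, hm0, Or.inr ⟨⟨i, hi0, hi4, hmn.trans ?_⟩, f jI, hjI, hzu⟩⟩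
    rw [show M * i = L.e * (3 * i) by rw [← mul_assoc]; congr 1; exact L.eq.trans (by rw [hm])]
    exact mul_dvd_mul_right he _

end Fermat.Agent.R59
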