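import Fermat.Agent.R59.Mazur.Gen.Main
import Fermat.Agent.R59.Mazur.Three.Elliptic
import Fermat.Agent.R59.Mazur.Three.Hor
import Fermat.Agent.R59.Mazur.Three.Lift
import Fermat.Agent.R59.Mazur.Gen.Orders
import Fermat.Agent.R59.Mazur.PLevel.Hor
import Fermat.Agent.R59.Mazur.Two.Tame
import Fermat.Agent.LL.Mazur.EigenLower

/-!
# S59, unit F1 at `2`: the model at an odd multiple of three

For `p = 5` prime to the level everything is tame; otherwise `p` divides the level of the model once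
and the divisibility over infinity is an input.
-/

set_option autoImplicit false
set_option linter.style.haveILetI false
set_option linter.unusedSectionVars false

namespace Fermat.Agent.R59

open WeierstrassCurve WeierstrassCurve.Affine.Point IsLocalRing
open scoped WeierstrassCurve.Affine
open Fermat.Agent.GalRep
open Fermat.Agent.GalRep.Semistable (ChartsSemi finite_oBase)
open Fermat.Agent.NewVec
open Fermat.Agent.ModField

local notation "κ" A:max => IsLocalRing.ResidueField A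

/-- Tameness over the line of `j` in residue characteristic two. -/
theorem tameJ_two {A : ValuationSubring (AlgebraicClosure ℚ)} {p m m' : ℕ} [Fact p.Prime] [NeZero p]
    [NeZero m] [NeZero m'] [Fact (Nat.Prime 2)] (hA : A.LiesOverPrime 2) (h3 : 3 ∣ m') (h5 : 5 ≤ m')
    (hp : p = 3 ∨ p = 5) (hr : p = 3 → ∃ r : ℕ, r.Prime ∧ r ∣ m ∧ r % 3 = 2) (hm2 : ¬ 2 ∣ m)
    (P : Prop) (hP : P ∨ (p = 5 ∧ ¬ p ∣ m')) : TameJ A p m' (ZerosJ A p m) P := by
  intro _ Wv hk hne
  obtain ⟨u, hu0, hu1, hgen, n, hn0, hJ⟩ := exists_tame_two A hA h3 h5 Wv hk hne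
  refine ⟨u, hu0, hu1, hgen, n, hn0, ?_⟩
  rcases hJ with ⟨c, z, hz, hv, hn⟩ | ⟨⟨i, hi0, hi4, hni⟩, hz⟩
  · refine Or.inl ⟨c, z, hz, hv, ?_⟩
    rcases hn with rfl | ⟨hn, hc⟩
    · exact Or.inl (Fact.out : p.Prime).not_dvd_one
    rcases hp with rfl | rfl
    · obtain ⟨r, hr', hrm, hr3⟩ := hr rfl
      exact Or.inr ⟨fun h => by simpa using h.trans hn, hc, fun Q hQ => by
        exact_mod_cast three_dvd_ord_jFullC hA hm2 hr' hrm hr3 Q hQ⟩
    · exact Or.inl fun h => by simpa using h.trans hn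
  · refine Or.inr ⟨hP.imp id ?_, hz⟩
    rintro ⟨rfl, hpm⟩ h
    rcases (Nat.Prime.dvd_mul (by norm_num : Nat.Prime 5)).mp (h.trans hni) with h' | h'
    · exact hpm h'
    · have := Nat.le_of_dvd hi0 h'
      omega

/-- The level of the model at `2`. -/
def levelTwo (p m : ℕ) : ℕ := if p = 5 ∧ ¬ 5 ∣ m then 9 * m else if 3 ∣ m then m else 3 * m

theorem levelTwo_spec {p m : ℕ} (hp : p = 3 ∨ p = 5) (hsq : Squarefree m) (hm2 : ¬ 2 ∣ m)
    (hr : p = 3 → ∃ r : ℕ, r.Prime ∧ r ∣ m ∧ r % 3 = 2) :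
    m ∣ levelTwo p m ∧ 3 ∣ levelTwo p m ∧ Odd (levelTwo p m) ∧ 5 ≤ levelTwo p m ∧
      ((p = 5 ∧ ¬ p ∣ levelTwo p m) ∨ (p ∣ levelTwo p m ∧ ¬ p * p ∣ levelTwo p m)) := by
  have hm : 0 < m := Nat.pos_of_ne_zero hsq.ne_zero
  have hodd : Odd m := Nat.odd_iff.mpr (Nat.two_dvd_ne_zero.mp hm2)
  have hsq' : ∀ q : ℕ, q.Prime → ¬ q * q ∣ m := fun q hq h =>
    hq.not_isUnit (hsq q h)
  unfold levelTwo
  by_cases h5 : p = 5 ∧ ¬ 5 ∣ m
  · rw [if_pos h5]
    refine ⟨dvd_mul_left m 9, Dvd.dvd.mul_right (by norm_num) m, (by decide : Odd 9).mul hodd,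
      by omega, Or.inl ⟨h5.1, ?_⟩⟩
    rw [h5.1]
    exact fun h => ((by norm_num : Nat.Prime 5).dvd_mul.mp h).elim (by norm_num) h5.2
  rw [if_neg h5]
  have h5' : p = 5 → 5 ∣ m := fun e => by_contra fun h => h5 ⟨e, h⟩
  have h3odd : Odd 3 := by decide
  by_cases h3 : 3 ∣ m
  · rw [if_pos h3]
    refine ⟨dvd_rfl, h3, hodd, ?_, Or.inr ?_⟩
    · rcases hp with rfl | rfl
      · obtain ⟨r, hr', hrm, hr3⟩ := hr rfl
        have : r ≠ 2 := fun e => hm2 (e ▸ hrm)
        have := Nat.le_of_dvd hm hrm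
        have := hr'.two_le
        have : r ≠ 3 := by omega
        have : r ≠ 4 := by rintro rfl; norm_num at hr'
        omega
      · exact Nat.le_of_dvd hm (h5' rfl)
    · rcases hp with rfl | rfl
      · exact ⟨h3, hsq' 3 Nat.prime_three⟩
      · exact ⟨h5' rfl, hsq' 5 (by norm_num)⟩
  · rw [if_neg h3]
    refine ⟨dvd_mul_left m 3, dvd_mul_right 3 m, h3odd.mul hodd, ?_, Or.inr ?_⟩
    · rcases hp with rfl | rfl
      · obtain ⟨r, hr', hrm, -⟩ := hr rfl
        have := Nat.le_of_dvd hm hrm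
        have := hr'.two_le
        omega
      · have := Nat.le_of_dvd hm (h5' rfl)
        omega
    · rcases hp with rfl | rfl
      · exact ⟨dvd_mul_right 3 m, fun h => h3 (Nat.dvd_of_mul_dvd_mul_left (by norm_num) h)⟩
      · refine ⟨(h5' rfl).mul_left 3, fun h => hsq' 5 (by norm_num) ?_⟩
        exact (Nat.Coprime.dvd_of_dvd_mul_left (by norm_num) h)

set_option maxHeartbeats 800000 in
/-- The model at `2`, given the divisibility over infinity when `p` divides its level. -/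
theorem infModel_two {A : ValuationSubring (AlgebraicClosure ℚ)} {p m : ℕ} [Fact p.Prime]
    [NeZero p] [Fact (Nat.Prime 2)] [NeZero m] (hA : A.LiesOverPrime 2) (hp : p = 3 ∨ p = 5)
    (hsq : Squarefree m) (hm2 : ¬ 2 ∣ m) (hr : p = 3 → ∃ r : ℕ, r.Prime ∧ r ∣ m ∧ r % 3 = 2)
    (hP : ¬ (p = 5 ∧ ¬ p ∣ levelTwo p m) → RedOrdInfDvd A p 2 m) :
    InfModel A p 2 m := by
  obtain ⟨hmm, h3, hodd, h5, hcase⟩ := levelTwo_spec hp hsq hm2 hr
  set m' := levelTwo p m with hm'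
  haveI : NeZero m' := ⟨by omega⟩
  haveI : NeZero (2 * m') := ⟨by omega⟩
  have hqm' : ¬ 2 ∣ m' := Nat.two_dvd_ne_zero.mpr (Nat.odd_iff.mp hodd)
  have hp' : p.Prime := Fact.out
  have hp2 : p ≠ 2 := by omega
  have hp2' : ¬ p ∣ 2 := fun h => by
    have := Nat.le_of_dvd two_pos h
    have := hp'.two_le
    omega
  have hmem := redMemBad_two hA hmm h3 hodd h5
  have hpts := chartsSemi_two hA h3 hodd
  have hT : TameJ A p m' (ZerosJ A p m) (RedOrdInfDvd A p 2 m) := by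
    refine tameJ_two hA h3 h5 hp hr hm2 _ ?_
    by_cases h : p = 5 ∧ ¬ p ∣ m'
    · exact Or.inr h
    · exact Or.inl (hP h)
  rcases hcase with ⟨hp5, hpm⟩ | ⟨hpm, hpp⟩
  · subst hp5
    have hD : (6 * (2 * m')).Coprime 5 := Nat.Coprime.symm (hp'.coprime_iff_not_dvd.mpr fun h => by
      rcases hp'.dvd_mul.mp h with h | h
      · norm_num at h
      rcases hp'.dvd_mul.mp h with h | h
      · exact hp2' h
      · exact hpm h)
    exact ⟨m', inferInstance, _, hmm, hqm', by omega, hpts, hmem,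
      redOrdDvd_of_tame hA (by norm_num) hqm' (levThree h3 h5) hmm hpts hD
        (horRoots_six hA hqm' 5) hT, hD, horRoots_six hA hqm' 5⟩
  · set c : ℕ := if p = 3 then 2 else 6
    have hD : (c * (2 * (m' / p))).Coprime p := Nat.Coprime.symm (hp'.coprime_iff_not_dvd.mpr
      fun h => by
        rcases hp'.dvd_mul.mp h with h | h
        · rcases hp with rfl | rfl <;> simp [c] at h <;> norm_num at h
        rcases hp'.dvd_mul.mp h with h | h
        · exact hp2' h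
        · exact hpp (Nat.mul_dvd_of_dvd_div hpm h))
    have hell : 6 ∣ c * (2 * (m' / p)) ∨
        (2 ∣ c * (2 * (m' / p)) ∧ ∃ r : ℕ, r.Prime ∧ r ∣ m' ∧ r % 3 = 2) := by
      rcases hp with rfl | rfl
      · obtain ⟨r, hr', hrm, hr3⟩ := hr rfl
        exact Or.inr ⟨Dvd.dvd.mul_left (dvd_mul_right 2 _) _, r, hr', hrm.trans hmm, hr3⟩
      · exact Or.inl (Dvd.dvd.mul_right (by simp [c]) _)
    have hH := fun [IsDiscreteValuationRing (oBase A (2 * m'))] =>
      horRoots_pLevel (p := p) hA hqm' hpm (D := c * (2 * (m' / p))) (dvd_mul_left _ _) hell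
    exact ⟨m', inferInstance, _, hmm, hqm', by omega, hpts, hmem,
      redOrdDvd_of_tame hA (Ne.symm hp2) hqm' (levThree h3 h5) hmm hpts hD hH hT, hD, hH⟩

/-- Mazur's principle at `2` for `p ∈ {3, 5}`, given the divisibility over infinity. -/
theorem mazur_lower_at_two {p : ℕ} [Fact p.Prime] [NeZero p] [Fact (Nat.Prime 2)]
    (hp : p = 3 ∨ p = 5) (W : WeierstrassCurve ℤ) (hΔ : W.Δ ≠ 0) (hirr : W.ModRepIsIrreducible p)
    {m : ℕ} [NeZero m] (hsq : Squarefree m) (hm2 : ¬ 2 ∣ m)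
    (hr : p = 3 → ∃ r : ℕ, r.Prime ∧ r ∣ m ∧ r % 3 = 2)
    (hres : W.IsResiduallyModularOfLevel p (2 * m))
    (hunr : GaloisRepUnramifiedAt (K := AlgebraicClosure ℚ) ℚ (W.map (Int.castRingHom ℚ)) p 2)
    (hP : ∀ A : ValuationSubring (AlgebraicClosure ℚ), A.LiesOverPrime 2 →
      ¬ (p = 5 ∧ ¬ p ∣ levelTwo p m) → RedOrdInfDvd A p 2 m) :
    W.IsResiduallyModularOfLevel p m := by
  have hp2 : (2 : ℕ) ≠ p := by omega
  refine mazur_lower_of_model (by omega) W hΔ hirr Nat.prime_two hp2 hm2 hres hunr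
    (Or.inl fun h => ?_) ?_ fun A hA => infModel_two hA hp hsq hm2 hr (hP A hA)
  · have h1 : ((1 : ℕ) : ZMod p) = 0 := by
      push_cast
      linear_combination h
    exact (Fact.out : p.Prime).ne_one (Nat.dvd_one.mp ((ZMod.natCast_eq_zero_iff 1 p).mp h1))
  intro S hmS a χ h0 h
  rcases hp with rfl | rfl
  · obtain ⟨r, hr', hrm, hr3⟩ := hr rfl
    exact exists_theta_of_eigen_noTors S hmS a h0 (noTors_of_neat hr' hrm hr3 (by norm_num)) h
  · exact LL.Mazur.exists_theta_of_eigen le_rfl S hmS a h0 h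

end Fermat.Agent.R59
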